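import Fermat.Agent.EllFrob.CharThreeFormulas

/-!
# Frobenius on the ordinary curves over `ZMod 3`

`frobRel_three_ordinary`: `FrobRel` for the models `y² = x³ + a₂ x² + a₆` over `ZMod 3`. The trace
is counted by `decide`; on points with `x` outside the roots of four auxiliary polynomials the
identity is one of the formulas `three_one`, `three_two` of `EllFrob/CharThreeFormulas`.
-/

set_option autoImplicit false

noncomputable section

open Polynomial WeierstrassCurve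
open scoped WeierstrassCurve.Affine

namespace FLTAgent.EllFrob

variable {k : Type} [Field k] [DecidableEq k] [Algebra (ZMod 3) k]

omit [Algebra (ZMod 3) k] in
theorem eval_ne_zero_of_notMem_roots {p : k[X]} (hp : p.Monic) {x : k}
    (hx : x ∉ p.roots.toFinset) : p.eval x ≠ 0 := fun h =>
  hx (Multiset.mem_toFinset.mpr ((mem_roots hp.ne_zero).mpr h))

omit [DecidableEq k] in
theorem three_eq_zero_of_algebra : (3 : k) = 0 := by
  rw [← map_ofNat (algebraMap (ZMod 3) k) 3, show (3 : ZMod 3) = 0 from rfl, map_zero]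

/-- `j ≠ 0` models over `ZMod 3`. -/
theorem frobRel_three_ordinary [IsAlgClosed k] {E : WeierstrassCurve (ZMod 3)}
    (h₁ : E.a₁ = 0) (h₃ : E.a₃ = 0) (h₄ : E.a₄ = 0) (hΔ : E.Δ ≠ 0) : FrobRel k E := by
  have h3 : (3 : k) = 0 := three_eq_zero_of_algebra
  have hb2 : E.a₂ ≠ 0 ∧ E.a₆ ≠ 0 := by
    have key : ∀ a b : ZMod 3,
        -(a * 4) ^ 2 * (4 * a * b) - 8 * 0 ^ 3 - 27 * (4 * b) ^ 2 + 9 * (4 * a) * 0 * (4 * b) ≠ 0 →
          a ≠ 0 ∧ b ≠ 0 := by decide
    refine key _ _ ?_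
    convert hΔ using 1
    simp only [WeierstrassCurve.Δ, WeierstrassCurve.b₂, WeierstrassCurve.b₄, WeierstrassCurve.b₆,
      WeierstrassCurve.b₈, h₁, h₃, h₄]
    ring
  have ht : E.traceOfFrobenius = 4 - ((Finset.univ.filter fun p : ZMod 3 × ZMod 3 =>
      p.2 ^ 2 = p.1 ^ 3 + E.a₂ * p.1 ^ 2 + E.a₆).card + 1 : ℕ) := by
    rw [WeierstrassCurve.traceOfFrobenius, card_eq_count hΔ, Nat.card_zmod]
    simp [h₁, h₃, h₄]
  set a := (E⁄k).toAffine.a₂ with hadef
  set b := (E⁄k).toAffine.a₆ with hbdef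
  have c₁ : (E⁄k).toAffine.a₁ = 0 := (congrArg (algebraMap (ZMod 3) k) h₁).trans (map_zero _)
  have c₃ : (E⁄k).toAffine.a₃ = 0 := (congrArg (algebraMap (ZMod 3) k) h₃).trans (map_zero _)
  have c₄ : (E⁄k).toAffine.a₄ = 0 := (congrArg (algebraMap (ZMod 3) k) h₄).trans (map_zero _)
  have ha : a ^ 2 = 1 := by
    show algebraMap (ZMod 3) k E.a₂ ^ 2 = 1
    rw [← map_pow, (show ∀ c : ZMod 3, c ≠ 0 → c ^ 2 = 1 by decide) _ hb2.1, map_one]
  let P₁ : k[X] := X ^ 3 + C a * X ^ 2 + C b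
  let P₂ : k[X] := X ^ 3 + C b
  let P₃ : k[X] := X ^ 9 - X ^ 3
  let P₄ : k[X] := X ^ 6 + C a * X ^ 5 - X ^ 4 + C a * X ^ 3 - C a * X + C 1
  refine FrobRel.of_generic hΔ (P₁.roots.toFinset ∪ P₂.roots.toFinset ∪ P₃.roots.toFinset ∪
    P₄.roots.toFinset) fun x y hxy hx => ?_
  simp only [Finset.mem_union, not_or] at hx
  obtain ⟨⟨⟨hx₁, hx₂⟩, hx₃⟩, hx₄⟩ := hx
  have e₁ := eval_ne_zero_of_notMem_roots (p := P₁) (by simp only [P₁]; monicity!) hx₁
  have e₂ := eval_ne_zero_of_notMem_roots (p := P₂) (by simp only [P₂]; monicity!) hx₂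
  have e₃ := eval_ne_zero_of_notMem_roots (p := P₃) (by simp only [P₃]; monicity!) hx₃
  have e₄ := eval_ne_zero_of_notMem_roots (p := P₄) (by simp only [P₄]; monicity!) hx₄
  simp only [P₁, P₂, P₃, P₄, eval_add, eval_sub, eval_mul, eval_pow, eval_X, eval_C] at e₁ e₂ e₃ e₄
  have heq := ((E⁄k).toAffine.equation_iff x y).mp hxy.1
  rw [c₁, c₃, c₄, ← hadef, ← hbdef] at heq
  have hy : y ≠ 0 := fun h => e₁ (by rw [h] at heq; linear_combination -heq)
  obtain ⟨hF, eF⟩ := frobPoint_some hxy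
  obtain ⟨hFF, eFF⟩ := frobPoint_some hF
  have hQ' : ∀ u v, (E⁄k).toAffine.Nonsingular u v →
      (E⁄k).toAffine.Nonsingular (u ^ 3) (a * v ^ 3) := by
    intro u v h
    obtain ⟨h', -⟩ := frobPoint_some h
    rcases (show ∀ c : ZMod 3, c ≠ 0 → c = 1 ∨ c = -1 by decide) _ hb2.1 with h₂ | h₂
    · rwa [show a = 1 from (congrArg (algebraMap (ZMod 3) k) h₂).trans (map_one _), one_mul]
    · rw [show a = -1 from (congrArg (algebraMap (ZMod 3) k) h₂).trans (by simp), neg_one_mul]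
      have := (Affine.nonsingular_neg _ _).mpr h'
      rwa [Affine.negY, c₁, c₃, zero_mul, sub_zero, sub_zero] at this
  rw [frobPoly_apply, eF, eFF, Nat.cast_ofNat, show (3 : ℤ) = 1 + 1 + 1 from rfl, add_smul,
    add_smul, one_smul]
  rcases (show ∀ c d : ZMod 3, c ≠ 0 → d ≠ 0 → (d = -c ∨ d = c) by decide) _ _ hb2.1 hb2.2 with
    h₆ | h₆
  · have c₆ : b = -a := (congrArg (algebraMap (ZMod 3) k) h₆).trans (map_neg _ _)
    rw [c₆] at e₂
    have hx' : (x ^ 3) ^ 3 ≠ x ^ 3 := fun h => e₃ (by linear_combination h)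
    rcases (show ∀ c : ZMod 3, c ≠ 0 → c = 1 ∨ c = -1 by decide) _ hb2.1 with h₂ | h₂
    · have ca : a = 1 := (congrArg (algebraMap (ZMod 3) k) h₂).trans (map_one _)
      have ht' : E.traceOfFrobenius = 1 := by rw [ht, h₆, h₂]; decide
      have hneg : (E⁄k).toAffine.negY (x ^ 3) (y ^ 3) = -a * y ^ 3 := by
        rw [Affine.negY, c₁, c₃, ca]; ring
      rw [ht', one_zsmul, sub_eq_add_neg, Affine.Point.neg_some]
      simp only [hneg]
      exact three_one h3 c₁ c₃ c₄ ha c₆ hy e₂ hx' (hneg ▸ (Affine.nonsingular_neg _ _).mpr hF)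
        hxy hFF
    · have ca : a = -1 := (congrArg (algebraMap (ZMod 3) k) h₂).trans (by simp)
      have ht' : E.traceOfFrobenius = -1 := by rw [ht, h₆, h₂]; decide
      have hval : y ^ 3 = -a * y ^ 3 := by rw [ca, neg_neg, one_mul]
      rw [ht', neg_one_zsmul, sub_neg_eq_add]
      have key := three_one h3 c₁ c₃ c₄ ha c₆ hy e₂ hx' (hval ▸ hF) hxy hFF
      simp only [← hadef, ← hval] at key
      exact key
  · have c₆ : b = a := congrArg (algebraMap (ZMod 3) k) h₆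
    rw [c₆] at e₂
    obtain ⟨u, v, hn, hQ, e2, eQ, e4⟩ := three_two h3 c₁ c₃ c₄ ha c₆ hy e₂ e₄ hQ' hxy hFF
    obtain ⟨hF2, eF2⟩ := frobPoint_some hn
    rw [← e2, map_add, eF] at eF2
    rw [e2]
    simp only [← hadef] at e4
    rcases (show ∀ c : ZMod 3, c ≠ 0 → c = 1 ∨ c = -1 by decide) _ hb2.1 with h₂ | h₂
    · have ca : a = 1 := (congrArg (algebraMap (ZMod 3) k) h₂).trans (map_one _)
      have ht' : E.traceOfFrobenius = -2 := by rw [ht, h₆, h₂]; decide
      rw [ht', neg_smul, sub_neg_eq_add, two_zsmul, eF2]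
      simp only [ca, one_mul] at e4
      exact e4
    · have ca : a = -1 := (congrArg (algebraMap (ZMod 3) k) h₂).trans (by simp)
      have ht' : E.traceOfFrobenius = 2 := by rw [ht, h₆, h₂]; decide
      have hneg : (E⁄k).toAffine.negY (u ^ 3) (v ^ 3) = a * v ^ 3 := by
        rw [Affine.negY, c₁, c₃, ca]; ring
      rw [ht', sub_eq_add_neg, two_zsmul, eF2, Affine.Point.neg_some]
      simp only [hneg]
      exact e4

end FLTAgent.EllFrob
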