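import Fermat.Agent.EllFrob.Defs
import Fermat.Agent.Switch.FrobCharpoly

/-!
# Frobenius on short models over `ZMod ℓ`, `ℓ` odd

`frobRel_short` and `frobRel_of_isShortNF`: `FrobRel` for curves `y² = x³ + a x + b` with nonzero
discriminant. This transports `Switch.frob_charpoly` (Manin's elementary proof) to the prime field
setting of `EllFrob/Defs`.
-/

set_option autoImplicit false

noncomputable section

open WeierstrassCurve
open scoped WeierstrassCurve.Affine

namespace FLTAgent.EllFrob

variable {ℓ : ℕ} [Fact ℓ.Prime] {k : Type} [Field k] [DecidableEq k] [Algebra (ZMod ℓ) k]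

theorem short_baseChange (a b : ZMod ℓ) :
    ((Switch.short a b : WeierstrassCurve (ZMod ℓ))⁄k).toAffine =
      Switch.short (algebraMap (ZMod ℓ) k a) (algebraMap (ZMod ℓ) k b) := by
  show ((Switch.short a b : WeierstrassCurve (ZMod ℓ)).map (algebraMap (ZMod ℓ) k)).toAffine = _
  ext <;> simp [Switch.short]

/-- The characteristic equation for `y² = x³ + a x + b`. -/
theorem frobRel_short {a b : ZMod ℓ} (h2 : (2 : ZMod ℓ) ≠ 0) (hd : 4 * a ^ 3 + 27 * b ^ 2 ≠ 0) :
    FrobRel k (Switch.short a b : WeierstrassCurve (ZMod ℓ)) := by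
  intro T
  apply castHom_injective (short_baseChange (k := k) a b)
  have key : ∀ S, castHom (short_baseChange (k := k) a b) (frobPoint k (Switch.short a b) S) =
      (Switch.qFrobData k h2 hd).hom (castHom (short_baseChange (k := k) a b) S) := by
    intro S
    cases S with
    | zero => simp [← Affine.Point.zero_def]
    | some x y h =>
      obtain ⟨h', e'⟩ := frobPoint_some h
      rw [e', castHom_some, castHom_some]
      obtain ⟨h₂, e₂⟩ := Switch.qFrob_some k h2 hd (short_baseChange (k := k) a b ▸ h)
      rw [e₂]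
      simp only [ZMod.card]
  have ht : (Switch.short a b : WeierstrassCurve (ZMod ℓ)).traceOfFrobenius =
      (Fintype.card (ZMod ℓ) : ℤ) + 1 - Nat.card (Switch.short a b).Point := by
    rw [WeierstrassCurve.traceOfFrobenius, Nat.card_eq_fintype_card]
    rfl
  rw [map_nsmul, frobPoly_apply, map_add, map_sub, map_zsmul, map_zsmul, key, key, map_zero, ht]
  have := Switch.frob_charpoly k h2 hd (castHom (short_baseChange (k := k) a b) T)
  simpa only [ZMod.card] using this

/-- The characteristic equation for any model with `a₁ = a₂ = a₃ = 0`. -/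
theorem frobRel_of_isShortNF {E : WeierstrassCurve (ZMod ℓ)} [E.IsShortNF]
    (h2 : (2 : ZMod ℓ) ≠ 0) (hΔ : E.Δ ≠ 0) : FrobRel k E := by
  have hE : E = (Switch.short E.a₄ E.a₆ : WeierstrassCurve (ZMod ℓ)) := by
    ext <;> simp
  rw [hE]
  refine frobRel_short h2 fun h0 => hΔ ?_
  rw [hE, Switch.short_Δ, h0, mul_zero]

end FLTAgent.EllFrob
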