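import Fermat.Agent.EllFrob.CharTwo
import Fermat.Agent.EllFrob.CharThree
import Fermat.Agent.EllFrob.Short

/-!
# Frobenius satisfies `2 (F² - t F + ℓ) = 0` for every curve over `ZMod ℓ`

`frobRel`: reduce by a change of variables to a normal form, then use the explicit formulas for
`ℓ = 2` (`frobRel_of_two`) and for the ordinary curves at `ℓ = 3` (`frobRel_of_three`), and the
short model result (`frobRel_of_isShortNF`) in all other cases.
-/

set_option autoImplicit false

noncomputable section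

open WeierstrassCurve
open scoped WeierstrassCurve.Affine

namespace FLTAgent.EllFrob

theorem Δ_variableChange_ne_zero {R : Type*} [Field R] {E : WeierstrassCurve R} (hΔ : E.Δ ≠ 0)
    (C : VariableChange R) : (C • E).Δ ≠ 0 := by
  rw [variableChange_Δ]
  exact mul_ne_zero (pow_ne_zero _ (Units.ne_zero _)) hΔ

/-- The characteristic equation for every elliptic curve over `ZMod 2`. -/
theorem frobRel_of_two {k : Type} [Field k] [DecidableEq k] [Algebra (ZMod 2) k] [IsAlgClosed k]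
    {E : WeierstrassCurve (ZMod 2)} (hΔ : E.Δ ≠ 0) : FrobRel k E := by
  obtain ⟨C, hC⟩ := E.exists_variableChange_isCharTwoNF
  have hΔ' := Δ_variableChange_ne_zero hΔ C
  refine FrobRel.of_variableChange (C := C) ?_
  generalize C • E = V at hC hΔ' ⊢
  obtain ⟨h⟩ | ⟨h⟩ := hC
  · refine frobRel_two_ordinary V.a₁_of_isCharTwoJNeZeroNF V.a₃_of_isCharTwoJNeZeroNF
      V.a₄_of_isCharTwoJNeZeroNF ?_ hΔ'
    rw [Δ_of_isCharTwoJNeZeroNF_of_char_two] at hΔ'
    exact (show ∀ c : ZMod 2, c ≠ 0 → c = 1 by decide) _ hΔ'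
  · refine frobRel_two_supersingular V.a₁_of_isCharTwoJEqZeroNF V.a₂_of_isCharTwoJEqZeroNF ?_ hΔ'
    rw [Δ_of_isCharTwoJEqZeroNF_of_char_two] at hΔ'
    exact (show ∀ c : ZMod 2, c ^ 4 ≠ 0 → c = 1 by decide) _ hΔ'

/-- The characteristic equation for every elliptic curve over `ZMod 3`. -/
theorem frobRel_of_three {k : Type} [Field k] [DecidableEq k] [Algebra (ZMod 3) k] [IsAlgClosed k]
    {E : WeierstrassCurve (ZMod 3)} (hΔ : E.Δ ≠ 0) : FrobRel k E := by
  obtain ⟨C, hC⟩ := E.exists_variableChange_isCharThreeNF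
  have hΔ' := Δ_variableChange_ne_zero hΔ C
  refine FrobRel.of_variableChange (C := C) ?_
  generalize C • E = V at hC hΔ' ⊢
  obtain ⟨h⟩ | ⟨h⟩ := hC
  · exact frobRel_three_ordinary V.a₁_of_isCharThreeJNeZeroNF V.a₃_of_isCharThreeJNeZeroNF
      V.a₄_of_isCharThreeJNeZeroNF hΔ'
  · exact frobRel_of_isShortNF (by decide) hΔ'

/-- `2 (F² - t F + ℓ) = 0` on the points of every elliptic curve over `ZMod ℓ`. -/
theorem frobRel {ℓ : ℕ} [Fact ℓ.Prime] {k : Type} [Field k] [DecidableEq k] [Algebra (ZMod ℓ) k]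
    [IsAlgClosed k] {E : WeierstrassCurve (ZMod ℓ)} (hΔ : E.Δ ≠ 0) : FrobRel k E := by
  have hℓ : ℓ.Prime := Fact.out
  by_cases h2 : ℓ = 2
  · subst h2; exact frobRel_of_two hΔ
  by_cases h3 : ℓ = 3
  · subst h3; exact frobRel_of_three hΔ
  have ne : ∀ q : ℕ, q.Prime → ℓ ≠ q → (q : ZMod ℓ) ≠ 0 := fun q hq hne h =>
    hne ((Nat.prime_dvd_prime_iff_eq hℓ hq).mp ((ZMod.natCast_eq_zero_iff _ _).mp h))
  have n2 : (2 : ZMod ℓ) ≠ 0 := by exact_mod_cast ne 2 Nat.prime_two h2
  have n3 : (3 : ZMod ℓ) ≠ 0 := by exact_mod_cast ne 3 Nat.prime_three h3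
  let := invertibleOfNonzero n2
  let := invertibleOfNonzero n3
  obtain ⟨C, hC⟩ := E.exists_variableChange_isShortNF
  exact FrobRel.of_variableChange (C := C)
    (frobRel_of_isShortNF n2 (Δ_variableChange_ne_zero hΔ C))

end FLTAgent.EllFrob
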