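import Fermat.Agent.EllFrob.CharTwo

/-!
# Addition formulas for `y² = x³ + a x² + b` in characteristic three

`three_one` (`b = -a`) and `three_two` (`b = a`), with `a = ±1`: the point identities behind
`F² - t F + 3 = 0` at a generic point. Tripling is computed once (`triple_coords`): both coordinates
of `3P` and the cubed coordinates of `2P` depend only on `Z = x³` and `p = y³`. The chord through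
the Frobenius images is then a small identity in these two variables (`frob_chord_one`,
`frob_chord_two`). All steps are checked by certificates for `linear_combination`.
-/

set_option autoImplicit false

noncomputable section

open WeierstrassCurve
open scoped WeierstrassCurve.Affine

namespace FLTAgent.EllFrob

variable {F : Type*} [Field F] [DecidableEq F] {W : Affine F}


section Certificates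

variable {R : Type*} [Field R]

/-- Cubed coordinates of a double point, and the coordinates of a triple point, in characteristic
three, for `y² = x³ + a x² + b`. -/
private theorem triple_coords (h3 : (3 : R) = 0) {a b x y i j d u v : R} (ha : a ^ 2 = 1)
    (hb : b ^ 2 = 1) (heq : y ^ 2 = x ^ 3 + a * x ^ 2 + b) (hd : d = x ^ 3 + b) (hi : y * i = 1)
    (hj : d * j = 1) (hu : u = (a * x * i) ^ 2 - a - x - x)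
    (hv : v = -(a * x * i * (u - x) + y)) :
    (y ^ 3) ^ 2 = (x ^ 3) ^ 3 + a * (x ^ 3) ^ 2 + b ∧
      u ^ 3 * (y ^ 3) ^ 2 = (x ^ 3 - a) * (y ^ 3) ^ 2 + (x ^ 3) ^ 2 ∧
      v ^ 3 * (y ^ 3) ^ 3 = -(a * x ^ 3 * ((x ^ 3) ^ 2 - a * (y ^ 3) ^ 2) + (y ^ 3) ^ 4) ∧
      (-a * x * i - a * y ^ 3 * j) ^ 2 - a - u - x = (y ^ 3) ^ 2 * j ^ 2 - a * x ^ 3 * j ∧
      (-a * x * i - a * y ^ 3 * j) * ((y ^ 3) ^ 2 * j ^ 2 - a * x ^ 3 * j - u) + v =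
        y ^ 3 * (-a * (x ^ 3) ^ 3 - b * x ^ 3 + 1 - a * b) * j ^ 3 := by
  have hy : y ≠ 0 := left_ne_zero_of_mul_eq_one hi
  have hd0 : d ≠ 0 := left_ne_zero_of_mul_eq_one hj
  have hY6 : y ^ 6 = x ^ 9 + a * x ^ 6 + b := by
    linear_combination (y ^ 4 + x ^ 3 * y ^ 2 + x ^ 6 + b * y ^ 2 + 2 * b * x ^ 3 + b ^ 2 + a
      * x ^ 2 * y ^ 2 + 2 * a * x ^ 5 + 2 * a * b * x ^ 2 + a ^ 2 * x ^ 4) * heq + (3 * x ^ 7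
      + 3 * b * x ^ 4 + a * x ^ 6) * ha + (3 * x ^ 3 + b + 3 * a * x ^ 2) * hb + (x ^ 3 + x ^
      7 + b * x ^ 4 + b * x ^ 6 + a * x ^ 2 + a * x ^ 8 + 2 * a * b * x ^ 5) * h3
  have hu0 : u * y ^ 2 = (x - a) * y ^ 2 + x ^ 2 := by
    linear_combination (y ^ 2) * hu + (a ^ 2 * x ^ 2 + a ^ 2 * x ^ 2 * y * i) * hi + (-3 * x)
      * heq + (x ^ 2) * ha + (-x ^ 4 - b * x - a * x ^ 3) * h3
  have hv0 : v * y ^ 3 = -(a * x * (x ^ 2 - a * y ^ 2) + y ^ 4) := by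
    linear_combination (y ^ 3) * hv + (-a * x * y ^ 3 * i) * hu + (3 * a * x ^ 2 * y ^ 2 + a ^
      2 * x * y ^ 2 - a ^ 3 * x ^ 3 - a ^ 3 * x ^ 3 * y * i - a ^ 3 * x ^ 3 * y ^ 2 * i ^ 2) *
      hi + (3 * a * x ^ 2) * heq + (3 * x ^ 4 - a * x ^ 3) * ha + (x ^ 4 + a * x ^ 5 + a * b *
      x ^ 2) * h3
  refine ⟨by linear_combination hY6, ?_, ?_, ?_, ?_⟩
  · -- cube of the abscissa
    linear_combination (y ^ 4 * u ^ 2 + x * y ^ 4 * u + x ^ 2 * y ^ 2 * u + x ^ 2 * y ^ 4 + 2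
      * x ^ 3 * y ^ 2 + x ^ 4 - a * y ^ 4 * u - 2 * a * x * y ^ 4 - 2 * a * x ^ 2 * y ^ 2 + a
      ^ 2 * y ^ 4) * hu0 + (3 * x * y ^ 6 + 3 * x ^ 2 * y ^ 4 - a * y ^ 6) * ha + (x * y ^ 6 +
      x ^ 2 * y ^ 4 + x ^ 4 * y ^ 4 + x ^ 5 * y ^ 2 - a * x ^ 2 * y ^ 6 - 2 * a * x ^ 3 * y ^
      4 - a * x ^ 4 * y ^ 2) * h3
  · -- cube of the ordinate
    linear_combination (y ^ 6 * v ^ 2 - y ^ 7 * v + y ^ 8 - a * x ^ 3 * y ^ 3 * v + 2 * a * x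
      ^ 3 * y ^ 4 + a ^ 2 * x * y ^ 5 * v - 2 * a ^ 2 * x * y ^ 6 + a ^ 2 * x ^ 6 - 2 * a ^ 3
      * x ^ 4 * y ^ 2 + a ^ 4 * x ^ 2 * y ^ 4) * hv0 + (3 * x * y ^ 10 - 3 * x ^ 2 * y ^ 8 - 3
      * x ^ 6 * y ^ 4 + 3 * x ^ 7 * y ^ 2 + 6 * a * x ^ 4 * y ^ 6 - 3 * a * x ^ 5 * y ^ 4 - a
      * x ^ 9 - 3 * a ^ 2 * x ^ 2 * y ^ 8 + a ^ 2 * x ^ 3 * y ^ 6 + 3 * a ^ 2 * x ^ 7 * y ^ 2
      - 3 * a ^ 3 * x ^ 5 * y ^ 4 + a ^ 4 * x ^ 3 * y ^ 6) * ha + (x * y ^ 10 - x ^ 2 * y ^ 8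
      - x ^ 6 * y ^ 4 + x ^ 7 * y ^ 2 - a * x ^ 3 * y ^ 8 + 2 * a * x ^ 4 * y ^ 6 - a * x ^ 5
      * y ^ 4) * h3
  · refine mul_right_cancel₀ (mul_ne_zero (pow_ne_zero 2 hy) (pow_ne_zero 2 hd0)) ?_
    linear_combination (-y ^ 2 * d ^ 2) * hu + (2 * a ^ 2 * x * y ^ 4 * j * d ^ 2) * hi + (-y
      ^ 8 - y ^ 8 * j * d + a * x ^ 3 * y ^ 2 * d + a ^ 2 * y ^ 8 + a ^ 2 * y ^ 8 * j * d + 2
      * a ^ 2 * x * y ^ 4 * d) * hj + (x * y ^ 2 * d + x ^ 4 * y ^ 2 + b * x * y ^ 2 + a * x ^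
      3 * y ^ 2 + 2 * a ^ 2 * x * y ^ 4) * hd + (-y ^ 6 - x ^ 3 * y ^ 4 - x ^ 6 * y ^ 2 + x ^
      7 - x ^ 9 - b * y ^ 4 - 2 * b * x ^ 3 * y ^ 2 + 2 * b * x ^ 4 - 3 * b * x ^ 6 - b ^ 2 *
      y ^ 2 + b ^ 2 * x - 3 * b ^ 2 * x ^ 3 - b ^ 3 - a * x ^ 2 * y ^ 4 - 2 * a * x ^ 5 * y ^
      2 + a * x ^ 6 - 3 * a * x ^ 8 - 2 * a * b * x ^ 2 * y ^ 2 + a * b * x ^ 3 - 6 * a * b *
      x ^ 5 - 3 * a * b ^ 2 * x ^ 2 + a ^ 2 * y ^ 6 + a ^ 2 * x ^ 3 * y ^ 4 + a ^ 2 * x ^ 4 *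
      y ^ 2 + a ^ 2 * x ^ 6 * y ^ 2 - a ^ 2 * x ^ 7 + a ^ 2 * x ^ 9 + a ^ 2 * b * y ^ 4 + 2 *
      a ^ 2 * b * x * y ^ 2 + 2 * a ^ 2 * b * x ^ 3 * y ^ 2 + a ^ 2 * b * x ^ 4 + 3 * a ^ 2 *
      b * x ^ 6 + a ^ 2 * b ^ 2 * y ^ 2 + 2 * a ^ 2 * b ^ 2 * x + 3 * a ^ 2 * b ^ 2 * x ^ 3 +
      a ^ 2 * b ^ 3 + a ^ 3 * x ^ 2 * y ^ 4 + 2 * a ^ 3 * x ^ 5 * y ^ 2 + a ^ 3 * x ^ 6 + 3 *
      a ^ 3 * x ^ 8 + 2 * a ^ 3 * b * x ^ 2 * y ^ 2 + 2 * a ^ 3 * b * x ^ 3 + 6 * a ^ 3 * b *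
      x ^ 5 + 3 * a ^ 3 * b ^ 2 * x ^ 2 + a ^ 4 * x ^ 4 * y ^ 2 + 3 * a ^ 4 * x ^ 7 + 3 * a ^
      4 * b * x ^ 4 + a ^ 5 * x ^ 6) * heq + (3 * x ^ 8 + 2 * x ^ 10 + x ^ 12 + 3 * b * x ^ 5
      + 6 * b * x ^ 7 + 4 * b * x ^ 9 + 6 * b ^ 2 * x ^ 4 + 6 * b ^ 2 * x ^ 6 + 2 * b ^ 3 * x
      + 4 * b ^ 3 * x ^ 3 + b ^ 4 + 4 * a * x ^ 9 + 4 * a * x ^ 11 + 8 * a * b * x ^ 6 + 12 *
      a * b * x ^ 8 + 4 * a * b ^ 2 * x ^ 3 + 12 * a * b ^ 2 * x ^ 5 + 4 * a * b ^ 3 * x ^ 2 +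
      2 * a ^ 2 * x ^ 8 + 6 * a ^ 2 * x ^ 10 + 2 * a ^ 2 * b * x ^ 5 + 12 * a ^ 2 * b * x ^ 7
      + 6 * a ^ 2 * b ^ 2 * x ^ 4 + 4 * a ^ 3 * x ^ 9 + 4 * a ^ 3 * b * x ^ 6 + a ^ 4 * x ^ 8)
      * ha + (9 * x ^ 4 + 3 * b * x + 6 * a * x ^ 3) * hb + (3 * x ^ 4 + x ^ 8 + x ^ 10 + b *
      x + b * x ^ 5 + 3 * b * x ^ 7 + 2 * a * x ^ 3 + 2 * a * x ^ 9 + 4 * a * b * x ^ 6) * h3
  · have hS : ((y ^ 3) ^ 2 * j ^ 2 - a * x ^ 3 * j - u) * y ^ 2 * d ^ 2 =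
        1 - x ^ 10 + x ^ 12 - b * x + b * x ^ 3 - b * x ^ 5 + b * x ^ 9 + a * x ^ 3 + a *
          x ^ 11 + a * b + a * b * x ^ 2 := by
      linear_combination (-y ^ 2 * d ^ 2) * hu + (-a ^ 2 * x ^ 2 * d ^ 2 - a ^ 2 * x ^ 2 * y
        * i * d ^ 2) * hi + (y ^ 8 + y ^ 8 * j * d - a * x ^ 3 * y ^ 2 * d) * hj + (2 * x *
        y ^ 2 * d + 2 * x ^ 4 * y ^ 2 + 2 * b * x * y ^ 2 + a * y ^ 2 * d + a * b * y ^ 2 -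
        a ^ 2 * x ^ 2 * d - a ^ 2 * x ^ 5 - a ^ 2 * b * x ^ 2) * hd + (y ^ 6 + x ^ 3 * y ^ 4
        + x ^ 6 * y ^ 2 + 2 * x ^ 7 + x ^ 9 + b * y ^ 4 + 2 * b * x ^ 3 * y ^ 2 + 4 * b * x
        ^ 4 + 3 * b * x ^ 6 + b ^ 2 * y ^ 2 + 2 * b ^ 2 * x + 3 * b ^ 2 * x ^ 3 + b ^ 3 + a
        * x ^ 2 * y ^ 4 + 2 * a * x ^ 5 * y ^ 2 + 3 * a * x ^ 8 + 2 * a * b * x ^ 2 * y ^ 2
        + a * b * x ^ 3 + 6 * a * b * x ^ 5 + a * b ^ 2 + 3 * a * b ^ 2 * x ^ 2 + a ^ 2 * x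
        ^ 4 * y ^ 2 + 3 * a ^ 2 * x ^ 7 + 3 * a ^ 2 * b * x ^ 4 + a ^ 3 * x ^ 6) * heq + (6
        * x ^ 10 - b * x ^ 5 + 12 * b * x ^ 7 + 6 * b ^ 2 * x ^ 4 + 4 * a * x ^ 9 + 4 * a *
        b * x ^ 6 + a ^ 2 * x ^ 8) * ha + (1 + 12 * x ^ 4 + 6 * x ^ 6 + 2 * b * x + 4 * b *
        x ^ 3 + b ^ 2 + 4 * a * x ^ 3 + 12 * a * x ^ 5 + a * b + 4 * a * b * x ^ 2) * hb +
        (4 * x ^ 4 + 2 * x ^ 6 + 3 * x ^ 10 + b * x + b * x ^ 3 + 6 * b * x ^ 7 + b * x ^ 9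
        + a * x ^ 3 + 4 * a * x ^ 5 + 2 * a * x ^ 9 + a * x ^ 11 + a * b * x ^ 2 + 3 * a * b
        * x ^ 6 + 4 * a * b * x ^ 8) * h3
    have hL : (-a * x * i - a * y ^ 3 * j) * y * d =
        x ^ 5 + b * x ^ 2 - a + a * x ^ 4 - a * x ^ 6 - a * b * x + a * b * x ^ 3 := by
      linear_combination (-a * x * d) * hi + (-a * y ^ 4) * hj + (-a * x) * hd + (-a * y ^ 2
        - a * x ^ 3 - a * b - a ^ 2 * x ^ 2) * heq + (-2 * x ^ 5 - 2 * b * x ^ 2 - a * x ^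
        4) * ha + (-a) * hb + (-x ^ 5 - b * x ^ 2 - a * x ^ 4 - a * b * x ^ 3) * h3
    have hR : v * y ^ 3 = -1 - x ^ 6 + b * x + b * x ^ 3 + a * x ^ 5 + a * b * x ^ 2 := by
      linear_combination (y ^ 3) * hv + (-a * x * y ^ 3 * i) * hu + (3 * a * x ^ 2 * y ^ 2 +
        a ^ 2 * x * y ^ 2 - a ^ 3 * x ^ 3 - a ^ 3 * x ^ 3 * y * i - a ^ 3 * x ^ 3 * y ^ 2 *
        i ^ 2) * hi + (-y ^ 2 - x ^ 3 - b + 2 * a * x ^ 2 + a ^ 2 * x) * heq + (3 * x ^ 4 +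
        b * x) * ha + (-1) * hb + (x ^ 4 - b * x ^ 3) * h3
    generalize (y ^ 3) ^ 2 * j ^ 2 - a * x ^ 3 * j - u = U at hS ⊢
    generalize -a * x * i - a * y ^ 3 * j = W at hL ⊢
    refine mul_right_cancel₀ (mul_ne_zero (pow_ne_zero 3 hy) (pow_ne_zero 3 hd0)) ?_
    linear_combination (y ^ 2 * d ^ 2 * U) * hL + (x ^ 5 + b * x ^ 2 - a + a * x ^ 4 - a * x ^
      6 - a * b * x + a * b * x ^ 3) * hS + (d ^ 3) * hR + (-y ^ 6 - y ^ 6 * j * d - y ^ 6 * j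
      ^ 2 * d ^ 2 + b * x ^ 3 * y ^ 6 + b * x ^ 3 * y ^ 6 * j * d + b * x ^ 3 * y ^ 6 * j ^ 2
      * d ^ 2 + a * x ^ 9 * y ^ 6 + a * x ^ 9 * y ^ 6 * j * d + a * x ^ 9 * y ^ 6 * j ^ 2 * d
      ^ 2 + a * b * y ^ 6 + a * b * y ^ 6 * j * d + a * b * y ^ 6 * j ^ 2 * d ^ 2) * hj + (-1
      + b * x ^ 3 + a * x ^ 9 + a * b) * hY6 + (-d ^ 2 - x ^ 3 * d - x ^ 6 - x ^ 6 * d ^ 2 - x
      ^ 9 * d - x ^ 12 - b * d + b * x * d ^ 2 - 2 * b * x ^ 3 + b * x ^ 3 * d ^ 2 + b * x ^ 4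
      * d + b * x ^ 7 - b * x ^ 9 - b ^ 2 + b ^ 2 * x * d + b ^ 2 * x ^ 3 * d + 2 * b ^ 2 * x
      ^ 4 + b ^ 2 * x ^ 6 + b ^ 3 * x + b ^ 3 * x ^ 3 + a * x ^ 5 * d ^ 2 + a * x ^ 8 * d + a
      * x ^ 11 + a * b * x ^ 2 * d ^ 2 + 2 * a * b * x ^ 5 * d + 3 * a * b * x ^ 8 + a * b ^ 2
      * x ^ 2 * d + 3 * a * b ^ 2 * x ^ 5 + a * b ^ 3 * x ^ 2) * hd + (-x ^ 3 + x ^ 7 - x ^ 9
      - x ^ 11 + 2 * x ^ 15 - x ^ 17 - b - b * x ^ 2 + 2 * b * x ^ 6 - b * x ^ 8 - b * x ^ 12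
      + b * x ^ 14 - b ^ 2 * x + b ^ 2 * x ^ 5) * ha + (-2 * x ^ 3 + 2 * x ^ 5 + 2 * x ^ 7 + x
      ^ 11 - b + 3 * b * x ^ 4 + 2 * b * x ^ 6 + b ^ 2 * x + b ^ 2 * x ^ 3 + a + 3 * a * x ^ 2
      - a * x ^ 4 + 2 * a * x ^ 6 + 5 * a * x ^ 8 - a * x ^ 10 + a * x ^ 12 + 4 * a * b * x ^
      5 + a * b ^ 2 * x ^ 2) * hb + (-x ^ 3 + x ^ 5 + x ^ 7 - x ^ 9 - b + b * x ^ 4 - b * x ^
      12 + b * x ^ 14 + a * x ^ 2 + 2 * a * x ^ 8 + a * x ^ 16 + 2 * a * b * x ^ 5 + a * b * x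
      ^ 7 + 2 * a * b * x ^ 11) * h3

/-- The chord through the Frobenius images when `b = -a`, in the variables `Z = x³`, `p = y³`. -/
private theorem frob_chord_one (h3 : (3 : R) = 0) {a Z p j d : R} (ha : a ^ 2 = 1)
    (hp : p ^ 2 = Z ^ 3 + a * Z ^ 2 + -a) (hd : d = Z + -a) (hj : d * j = 1) :
    p ^ 3 - -a * p = p * Z * j * (Z ^ 3 - Z) ∧
      (p * Z * j) ^ 2 - a - Z ^ 3 - Z = p ^ 2 * j ^ 2 - a * Z * j ∧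
      p * Z * j * (p ^ 2 * j ^ 2 - a * Z * j - Z ^ 3) + p ^ 3 +
        p * (-a * Z ^ 3 + a * Z + 2) * j ^ 3 = 0 := by
  have hd0 : d ≠ 0 := left_ne_zero_of_mul_eq_one hj
  refine ⟨mul_right_cancel₀ hd0 ?_, mul_right_cancel₀ (pow_ne_zero 2 hd0) ?_,
    mul_right_cancel₀ (pow_ne_zero 3 hd0) ?_⟩
  · -- slope
    linear_combination (Z ^ 2 * p - Z ^ 4 * p) * hj + (p ^ 3 + a * p) * hd + (Z * p - a * p) *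
      hp + (-Z ^ 2 * p) * ha
  · -- abscissa
    linear_combination (-p ^ 2 + Z ^ 2 * p ^ 2 - j * d * p ^ 2 + j * d * Z ^ 2 * p ^ 2 + a * d
      * Z) * hj + (-Z ^ 2 - Z ^ 4 - d * Z - d * Z ^ 3 + a * Z + a * Z ^ 3 - a * d + a ^ 2) *
      hd + (-1 + Z ^ 2) * hp + (-Z ^ 3 - a) * ha + (-Z ^ 3 + a * Z ^ 4) * h3
  · -- ordinate
    linear_combination (2 * p + Z * p ^ 3 - d ^ 2 * Z ^ 4 * p + 2 * j * d * p + j * d * Z * p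
      ^ 3 + 2 * j ^ 2 * d ^ 2 * p + j ^ 2 * d ^ 2 * Z * p ^ 3 + a * Z * p - a * Z ^ 3 * p - a
      * d * Z ^ 2 * p + a * j * d * Z * p - a * j * d * Z ^ 3 * p - a * j * d ^ 2 * Z ^ 2 * p
      + a * j ^ 2 * d ^ 2 * Z * p - a * j ^ 2 * d ^ 2 * Z ^ 3 * p) * hj + (Z ^ 2 * p ^ 3 - Z ^
      5 * p + d * Z * p ^ 3 - d * Z ^ 4 * p + d ^ 2 * p ^ 3 - 2 * a * Z * p ^ 3 - a * Z ^ 2 *
      p + a * Z ^ 4 * p - a * d * p ^ 3 + a ^ 2 * p ^ 3) * hd + (Z * p + Z ^ 3 * p - 3 * a * Z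
      ^ 2 * p + 3 * a ^ 2 * Z * p - a ^ 3 * p) * hp + (p + 3 * Z ^ 2 * p - Z ^ 4 * p - 3 * a *
      Z * p + 2 * a * Z ^ 3 * p + a ^ 2 * p - a ^ 2 * Z ^ 2 * p) * ha + (p + Z ^ 2 * p - a * Z
      * p) * h3

/-- The chord through the Frobenius images when `b = a`, in the variables `Z = x³`, `p = y³`. -/
private theorem frob_chord_two (h3 : (3 : R) = 0) {a Z p q j d U W : R} (ha : a ^ 2 = 1)
    (hp : p ^ 2 = Z ^ 3 + a * Z ^ 2 + a) (hd : d = Z + a) (hj : d * j = 1) (hq : p * q = 1)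
    (hU : U * p ^ 2 = (Z - a) * p ^ 2 + Z ^ 2)
    (hW : W * p ^ 3 = -(a * Z * (Z ^ 2 - a * p ^ 2) + p ^ 4)) :
    p ^ 3 - a * W = (Z ^ 4 + Z ^ 2 - 1) * q * j * (Z ^ 3 - U) ∧
      ((Z ^ 4 + Z ^ 2 - 1) * q * j) ^ 2 - a - Z ^ 3 - U = p ^ 2 * j ^ 2 - a * Z * j ∧
      (Z ^ 4 + Z ^ 2 - 1) * q * j * (p ^ 2 * j ^ 2 - a * Z * j - Z ^ 3) + p ^ 3 +
        p * (-a * Z ^ 3 - a * Z) * j ^ 3 = 0 := by
  have hd0 : d ≠ 0 := left_ne_zero_of_mul_eq_one hj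
  have hp0 : p ≠ 0 := left_ne_zero_of_mul_eq_one hq
  refine ⟨mul_right_cancel₀ (mul_ne_zero (pow_ne_zero 3 hp0) hd0) ?_,
    mul_right_cancel₀ (mul_ne_zero (pow_ne_zero 2 hp0) (pow_ne_zero 2 hd0)) ?_,
    mul_right_cancel₀ (mul_ne_zero hp0 (pow_ne_zero 3 hd0)) ?_⟩
  · -- slope
    linear_combination (-a * d) * hW + (-j * d * p * q + j * d * Z ^ 2 * p * q + j * d * Z ^ 4
      * p * q) * hU + (-j * d * Z * p ^ 2 - j * d * Z ^ 2 + 2 * j * d * Z ^ 3 * p ^ 2 + j * d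
      * Z ^ 4 + j * d * Z ^ 6 - j * d * Z ^ 7 * p ^ 2 + a * j * d * p ^ 2 - a * j * d * Z ^ 2
      * p ^ 2 - a * j * d * Z ^ 4 * p ^ 2) * hq + (-Z * p ^ 2 - Z ^ 2 + 2 * Z ^ 3 * p ^ 2 + Z
      ^ 4 + Z ^ 6 - Z ^ 7 * p ^ 2 + a * p ^ 2 - a * Z ^ 2 * p ^ 2 - a * Z ^ 4 * p ^ 2) * hj +
      (p ^ 6 + a * p ^ 4 + a ^ 2 * Z ^ 3 - a ^ 3 * Z * p ^ 2) * hd + (-Z + Z * p ^ 4 + 2 * Z ^
      3 + Z ^ 4 * p ^ 2 + a + a * p ^ 4 + 2 * a * Z * p ^ 2 - a * Z ^ 2 + 2 * a * Z ^ 3 * p ^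
      2 + 2 * a * Z ^ 4 + 3 * a * Z ^ 6 + 2 * a ^ 2 * p ^ 2 + 2 * a ^ 2 * Z + a ^ 2 * Z ^ 2 *
      p ^ 2 + 6 * a ^ 2 * Z ^ 3 + 3 * a ^ 2 * Z ^ 5 + 2 * a ^ 3 + 2 * a ^ 3 * Z ^ 2 + a ^ 3 *
      Z ^ 4 - a ^ 4 * Z) * hp + (3 + 4 * Z ^ 2 + 6 * Z ^ 4 + 12 * Z ^ 6 + 6 * Z ^ 8 + a * Z +
      10 * a * Z ^ 3 + 11 * a * Z ^ 5 + 4 * a * Z ^ 7 + 2 * a ^ 2 + 4 * a ^ 2 * Z ^ 2 + 2 * a
      ^ 2 * Z ^ 4 + a ^ 2 * Z ^ 6 - a ^ 3 * Z - a ^ 3 * Z ^ 3) * ha + (1 + Z ^ 2 + 2 * Z ^ 4 +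
      5 * Z ^ 6 + 2 * Z ^ 8 + 4 * a * Z ^ 3 + 4 * a * Z ^ 5 + 2 * a * Z ^ 7 + a * Z ^ 9) * h3
  · -- abscissa
    linear_combination (-d ^ 2) * hU + (j ^ 2 * d ^ 2 + j ^ 2 * d ^ 2 * p * q - 2 * j ^ 2 * d
      ^ 2 * Z ^ 2 - 2 * j ^ 2 * d ^ 2 * Z ^ 2 * p * q - j ^ 2 * d ^ 2 * Z ^ 4 - j ^ 2 * d ^ 2
      * Z ^ 4 * p * q + 2 * j ^ 2 * d ^ 2 * Z ^ 6 + 2 * j ^ 2 * d ^ 2 * Z ^ 6 * p * q + j ^ 2
      * d ^ 2 * Z ^ 8 + j ^ 2 * d ^ 2 * Z ^ 8 * p * q) * hq + (1 - p ^ 4 - 2 * Z ^ 2 - Z ^ 4 +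
      2 * Z ^ 6 + Z ^ 8 + j * d - j * d * p ^ 4 - 2 * j * d * Z ^ 2 - j * d * Z ^ 4 + 2 * j *
      d * Z ^ 6 + j * d * Z ^ 8 + a * d * Z * p ^ 2) * hj + (-Z ^ 2 * p ^ 2 - Z ^ 3 - Z ^ 4 *
      p ^ 2 - d * Z * p ^ 2 - d * Z ^ 2 - d * Z ^ 3 * p ^ 2 - a * Z ^ 2 - a * Z ^ 3 * p ^ 2) *
      hd + (-p ^ 2 - 2 * Z ^ 3 - Z ^ 5 - a - 2 * a * Z ^ 2 - 2 * a * Z ^ 4 - a ^ 2 * Z ^ 3) *
      hp + (-1 - 4 * Z ^ 2 - 4 * Z ^ 4 - 3 * Z ^ 6 - a * Z ^ 3 - a * Z ^ 5) * ha + (-2 * Z ^ 2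
      - 2 * Z ^ 4 - Z ^ 6 - 2 * a * Z ^ 3 - 2 * a * Z ^ 5 - a * Z ^ 7) * h3
  · -- ordinate
    linear_combination (j * d ^ 3 * Z ^ 3 - j * d ^ 3 * Z ^ 5 - j * d ^ 3 * Z ^ 7 - j ^ 3 * d
      ^ 3 * p ^ 2 + j ^ 3 * d ^ 3 * Z ^ 2 * p ^ 2 + j ^ 3 * d ^ 3 * Z ^ 4 * p ^ 2 + a * j ^ 2
      * d ^ 3 * Z - a * j ^ 2 * d ^ 3 * Z ^ 3 - a * j ^ 2 * d ^ 3 * Z ^ 5) * hq + (-p ^ 2 + Z
      ^ 2 * p ^ 2 + Z ^ 4 * p ^ 2 + d ^ 2 * Z ^ 3 - d ^ 2 * Z ^ 5 - d ^ 2 * Z ^ 7 - j * d * p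
      ^ 2 + j * d * Z ^ 2 * p ^ 2 + j * d * Z ^ 4 * p ^ 2 - j ^ 2 * d ^ 2 * p ^ 2 + j ^ 2 * d
      ^ 2 * Z ^ 2 * p ^ 2 + j ^ 2 * d ^ 2 * Z ^ 4 * p ^ 2 - a * Z * p ^ 2 - a * Z ^ 3 * p ^ 2
      + a * d * Z - a * d * Z ^ 3 - a * d * Z ^ 5 - a * j * d * Z * p ^ 2 - a * j * d * Z ^ 3
      * p ^ 2 + a * j * d ^ 2 * Z - a * j * d ^ 2 * Z ^ 3 - a * j * d ^ 2 * Z ^ 5 - a * j ^ 2
      * d ^ 2 * Z * p ^ 2 - a * j ^ 2 * d ^ 2 * Z ^ 3 * p ^ 2) * hj + (Z ^ 2 * p ^ 4 + Z ^ 4 -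
      Z ^ 6 - Z ^ 8 + d * Z * p ^ 4 + d * Z ^ 3 - d * Z ^ 5 - d * Z ^ 7 + d ^ 2 * p ^ 4 + a *
      Z + 2 * a * Z * p ^ 4 - 2 * a * Z ^ 5 - a * Z ^ 7 + a * d * p ^ 4 + a ^ 2 * p ^ 4) * hd
      + (-1 + Z ^ 2 + Z ^ 3 * p ^ 2 + Z ^ 4 + Z ^ 6 - a * Z + 3 * a * Z ^ 2 * p ^ 2 + 4 * a *
      Z ^ 5 + 3 * a ^ 2 * Z * p ^ 2 + 3 * a ^ 2 * Z ^ 2 + 6 * a ^ 2 * Z ^ 4 + a ^ 3 * p ^ 2 +
      3 * a ^ 3 * Z + 4 * a ^ 3 * Z ^ 3 + a ^ 4 + a ^ 4 * Z ^ 2) * hp + (3 * Z + 7 * Z ^ 3 +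
      10 * Z ^ 5 + 9 * Z ^ 7 + a + 5 * a * Z ^ 2 + 13 * a * Z ^ 4 + 10 * a * Z ^ 6 + 3 * a ^ 2
      * Z + 8 * a ^ 2 * Z ^ 3 + 5 * a ^ 2 * Z ^ 5 + a ^ 3 + 2 * a ^ 3 * Z ^ 2 + a ^ 3 * Z ^ 4)
      * ha + (Z + 2 * Z ^ 3 + 4 * Z ^ 5 + 3 * Z ^ 7 + 2 * a * Z ^ 2 + 5 * a * Z ^ 4 + 3 * a *
      Z ^ 6 + a * Z ^ 8) * h3

end Certificates

/-- The case `a₆ = -a₂`. -/
theorem three_one (h3 : (3 : F) = 0) (c₁ : W.a₁ = 0) (c₃ : W.a₃ = 0) (c₄ : W.a₄ = 0)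
    (ha : W.a₂ ^ 2 = 1) (c₆ : W.a₆ = -W.a₂) {x y : F} (hy : y ≠ 0) (hj0 : x ^ 3 + (-W.a₂) ≠ 0)
    (hx' : (x ^ 3) ^ 3 ≠ x ^ 3) (hQ : W.Nonsingular (x ^ 3) (-W.a₂ * y ^ 3))
    (h : W.Nonsingular x y) (hFF : W.Nonsingular ((x ^ 3) ^ 3) ((y ^ 3) ^ 3)) :
    (Affine.Point.some _ _ hFF : W.Point) + .some _ _ hQ +
      ((.some x y h + .some x y h) + .some x y h) = 0 := by
  have heq := (W.equation_iff x y).mp h.1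
  rw [c₁, c₃, c₄, c₆] at heq
  obtain ⟨i, hi⟩ : ∃ i, y * i = 1 := ⟨y⁻¹, mul_inv_cancel₀ hy⟩
  obtain ⟨j, hj⟩ : ∃ j, (x ^ 3 + (-W.a₂)) * j = 1 := ⟨_, mul_inv_cancel₀ hj0⟩
  generalize hae : W.a₂ = a at *
  have heq' : y ^ 2 = x ^ 3 + a * x ^ 2 + -a := by linear_combination heq
  have hden : y - W.negY x y ≠ 0 := by
    simp only [Affine.negY, c₁, c₃]
    intro e
    exact hy (by linear_combination -e + y * h3)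
  obtain ⟨hn, e2⟩ := add_eq_of_slope h h (fun e => hden (sub_eq_zero.mpr e.2))
    (slope_eq_of_den (l := a * x * i) hden (by
      simp only [Affine.negY, c₁, c₃, c₄, hae]
      linear_combination -(2 * a * x) * hi + x ^ 2 * h3))
    (x₃ := (a * x * i) ^ 2 - a - x - x)
    (y₃ := -(a * x * i * ((a * x * i) ^ 2 - a - x - x - x) + y))
    (by simp only [Affine.addX, c₁, hae]; ring)
    (by simp only [Affine.addY, Affine.negAddY, Affine.addX, Affine.negY, c₁, c₃, hae]; ring)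
  have hb : (-a) ^ 2 = 1 := by linear_combination ha
  obtain ⟨hp, hU, hV, hX, hY⟩ := triple_coords h3 ha hb heq' rfl hi hj rfl rfl
  have hne2 : (a * x * i) ^ 2 - a - x - x ≠ x := fun e => by
    have hd2 : ((a * x * i) ^ 2 - a - x - x - x) * y ^ 2 = -a * (x ^ 3 + (-a)) := by
      linear_combination (a ^ 2 * x ^ 2 * (y * i + 1)) * hi - a * heq' - x * y ^ 2 * h3
    rw [sub_eq_zero.mpr e, zero_mul, eq_comm, mul_eq_zero] at hd2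
    rcases hd2 with h0 | h0
    · exact one_ne_zero (by rw [← ha, neg_eq_zero.mp h0]; ring : (1 : F) = 0)
    · exact hj0 h0
  obtain ⟨d, hd⟩ : ∃ d, d = x ^ 3 + (-a) := ⟨_, rfl⟩
  have hjd : d * j = 1 := by rw [hd]; exact hj
  have hd0 : d ≠ 0 := left_ne_zero_of_mul_eq_one hjd
  have hne3 : y * y * d ≠ 0 := mul_ne_zero (mul_ne_zero hy hy) hd0
  obtain ⟨h3', e3⟩ := add_eq_of_slope hn h (fun e => hne2 e.1)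
    (slope_eq_of_diff (l := -a * x * i - a * y ^ 3 * j) hne2 (by
      refine mul_right_cancel₀ hne3 ?_
      linear_combination (a ^ 3 * x ^ 2 * y ^ 3 * j * d + a ^ 3 * x ^ 2 * y ^ 4 * i * j * d)
        * hi + (-3 * a * x * y ^ 5 - a ^ 2 * y ^ 5 + a ^ 3 * x ^ 2 * y ^ 3) * hjd + (-2 * y ^
        3) * hd + (-2 * x ^ 3 * y + 2 * a * y - 3 * a * x * y ^ 3 - 3 * a * x ^ 4 * y - a ^
        2 * y ^ 3 + 3 * a ^ 2 * x * y - 4 * a ^ 2 * x ^ 3 * y + a ^ 3 * y) * heq' + (-3 * y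
        + 3 * x ^ 2 * y + 6 * x ^ 4 * y - 7 * x ^ 6 * y - 3 * a * x * y + 8 * a * x ^ 3 * y
        - 4 * a * x ^ 5 * y - a ^ 2 * y + a ^ 2 * x ^ 2 * y) * ha + (-y + x ^ 2 * y + 2 * x
        ^ 4 * y - 3 * x ^ 6 * y - a * x * y + 4 * a * x ^ 3 * y - 2 * a * x ^ 5 * y - a * x
        ^ 7 * y) * h3)) rfl rfl
  obtain ⟨hs, hx4, hy4⟩ := frob_chord_one (Z := x ^ 3) (p := y ^ 3) h3 ha hp rfl hj
  obtain ⟨h4, e4⟩ := add_eq_of_slope hFF hQ (fun e => hx' e.1)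
    (slope_eq_of_diff (l := y ^ 3 * x ^ 3 * j) hx' (by linear_combination hs)) rfl rfl
  rw [e4, e2, e3]
  refine Affine.Point.add_of_Y_eq ?_ ?_
  · simp only [Affine.addX, c₁, hae]
    linear_combination hx4 - hX
  · simp only [Affine.addY, Affine.negAddY, Affine.addX, Affine.negY, c₁, c₃, hae]
    linear_combination -hy4 - hY - (y ^ 3 * x ^ 3 * j) * hx4 -
      (-a * x * i - a * y ^ 3 * j) * hX - y ^ 3 * j ^ 3 * ha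

/-- The case `a₆ = a₂`. -/
theorem three_two (h3 : (3 : F) = 0) (c₁ : W.a₁ = 0) (c₃ : W.a₃ = 0) (c₄ : W.a₄ = 0)
    (ha : W.a₂ ^ 2 = 1) (c₆ : W.a₆ = W.a₂) {x y : F} (hy : y ≠ 0) (hj0 : x ^ 3 + (W.a₂) ≠ 0)
    (hP : x ^ 6 + W.a₂ * x ^ 5 - x ^ 4 + W.a₂ * x ^ 3 - W.a₂ * x + 1 ≠ 0)
    (hQ' : ∀ u v, W.Nonsingular u v → W.Nonsingular (u ^ 3) (W.a₂ * v ^ 3))
    (h : W.Nonsingular x y) (hFF : W.Nonsingular ((x ^ 3) ^ 3) ((y ^ 3) ^ 3)) :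
    ∃ (u v : F) (hn : W.Nonsingular u v) (hQ : W.Nonsingular (u ^ 3) (W.a₂ * v ^ 3)),
      (Affine.Point.some x y h : W.Point) + .some x y h = .some u v hn ∧
      (Affine.Point.some _ _ hQ : W.Point) = .some _ _ (hQ' u v hn) ∧
      (Affine.Point.some _ _ hFF : W.Point) + .some _ _ hQ + (.some u v hn + .some x y h) = 0 := by
  have heq := (W.equation_iff x y).mp h.1
  rw [c₁, c₃, c₄, c₆] at heq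
  obtain ⟨i, hi⟩ : ∃ i, y * i = 1 := ⟨y⁻¹, mul_inv_cancel₀ hy⟩
  obtain ⟨j, hj⟩ : ∃ j, (x ^ 3 + (W.a₂)) * j = 1 := ⟨_, mul_inv_cancel₀ hj0⟩
  generalize hae : W.a₂ = a at *
  have heq' : y ^ 2 = x ^ 3 + a * x ^ 2 + a := by linear_combination heq
  have hden : y - W.negY x y ≠ 0 := by
    simp only [Affine.negY, c₁, c₃]
    intro e
    exact hy (by linear_combination -e + y * h3)
  obtain ⟨hn, e2⟩ := add_eq_of_slope h h (fun e => hden (sub_eq_zero.mpr e.2))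
    (slope_eq_of_den (l := a * x * i) hden (by
      simp only [Affine.negY, c₁, c₃, c₄, hae]
      linear_combination -(2 * a * x) * hi + x ^ 2 * h3))
    (x₃ := (a * x * i) ^ 2 - a - x - x)
    (y₃ := -(a * x * i * ((a * x * i) ^ 2 - a - x - x - x) + y))
    (by simp only [Affine.addX, c₁, hae]; ring)
    (by simp only [Affine.addY, Affine.negAddY, Affine.addX, Affine.negY, c₁, c₃, hae]; ring)
  have hb : (a) ^ 2 = 1 := by linear_combination ha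
  obtain ⟨hp, hU, hV, hX, hY⟩ := triple_coords h3 ha hb heq' rfl hi hj rfl rfl
  have hne2 : (a * x * i) ^ 2 - a - x - x ≠ x := fun e => by
    have hd2 : ((a * x * i) ^ 2 - a - x - x - x) * y ^ 2 = -a * (x ^ 3 + (a)) := by
      linear_combination (a ^ 2 * x ^ 2 * (y * i + 1)) * hi - a * heq' - x * y ^ 2 * h3
    rw [sub_eq_zero.mpr e, zero_mul, eq_comm, mul_eq_zero] at hd2
    rcases hd2 with h0 | h0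
    · exact one_ne_zero (by rw [← ha, neg_eq_zero.mp h0]; ring : (1 : F) = 0)
    · exact hj0 h0
  obtain ⟨d, hd⟩ : ∃ d, d = x ^ 3 + (a) := ⟨_, rfl⟩
  have hjd : d * j = 1 := by rw [hd]; exact hj
  have hd0 : d ≠ 0 := left_ne_zero_of_mul_eq_one hjd
  have hne3 : y * y * d ≠ 0 := mul_ne_zero (mul_ne_zero hy hy) hd0
  obtain ⟨h3', e3⟩ := add_eq_of_slope hn h (fun e => hne2 e.1)
    (slope_eq_of_diff (l := -a * x * i - a * y ^ 3 * j) hne2 (by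
      refine mul_right_cancel₀ hne3 ?_
      linear_combination (a ^ 3 * x ^ 2 * y ^ 3 * j * d + a ^ 3 * x ^ 2 * y ^ 4 * i * j * d)
        * hi + (-3 * a * x * y ^ 5 - a ^ 2 * y ^ 5 + a ^ 3 * x ^ 2 * y ^ 3) * hjd + (-2 * y ^
        3) * hd + (-2 * x ^ 3 * y - 2 * a * y - 3 * a * x * y ^ 3 - 3 * a * x ^ 4 * y - a ^
        2 * y ^ 3 - 3 * a ^ 2 * x * y - 4 * a ^ 2 * x ^ 3 * y - a ^ 3 * y) * heq' + (-3 * y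
        - 3 * x ^ 2 * y - 6 * x ^ 4 * y - 7 * x ^ 6 * y - 3 * a * x * y - 8 * a * x ^ 3 * y
        - 4 * a * x ^ 5 * y - a ^ 2 * y - a ^ 2 * x ^ 2 * y) * ha + (-y - x ^ 2 * y - 2 * x
        ^ 4 * y - 3 * x ^ 6 * y - a * x * y - 4 * a * x ^ 3 * y - 2 * a * x ^ 5 * y - a * x
        ^ 7 * y) * h3)) rfl rfl
  have hQ := hQ' _ _ hn
  have hP' : (x ^ 3 - ((a * x * i) ^ 2 - a - x - x)) * y ^ 2 =
      x ^ 6 + a * x ^ 5 - x ^ 4 + a * x ^ 3 - a * x + 1 := by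
    linear_combination (-a ^ 2 * x ^ 2 - a ^ 2 * x ^ 2 * y * i) * hi + (2 * x + x ^ 3 + a) *
      heq' + (1) * ha + (x ^ 4 + a * x + a * x ^ 3) * h3
  have hx' : (x ^ 3) ^ 3 ≠ ((a * x * i) ^ 2 - a - x - x) ^ 3 := fun e => by
    have : (x ^ 3 - ((a * x * i) ^ 2 - a - x - x)) ^ 3 = 0 := by
      linear_combination e + ((x ^ 3) * ((a * x * i) ^ 2 - a - x - x) ^ 2 -
        (x ^ 3) ^ 2 * ((a * x * i) ^ 2 - a - x - x)) * h3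
    rw [pow_eq_zero_iff three_ne_zero] at this
    rw [this, zero_mul] at hP'
    exact hP hP'.symm
  have hq : y ^ 3 * i ^ 3 = 1 := by rw [← mul_pow, hi, one_pow]
  obtain ⟨hs, hx4, hy4⟩ :=
    frob_chord_two (Z := x ^ 3) (p := y ^ 3) h3 ha hp rfl hj hq hU hV
  obtain ⟨h4, e4⟩ := add_eq_of_slope hFF hQ (fun e => hx' e.1)
    (slope_eq_of_diff (l := ((x ^ 3) ^ 4 + (x ^ 3) ^ 2 - 1) * i ^ 3 * j) hx'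
      (by linear_combination hs)) rfl rfl
  refine ⟨_, _, hn, hQ, e2, rfl, ?_⟩
  rw [e4, e3]
  refine Affine.Point.add_of_Y_eq ?_ ?_
  · simp only [Affine.addX, c₁, hae]
    linear_combination hx4 - hX
  · simp only [Affine.addY, Affine.negAddY, Affine.addX, Affine.negY, c₁, c₃, hae]
    linear_combination -hy4 - hY - (((x ^ 3) ^ 4 + (x ^ 3) ^ 2 - 1) * i ^ 3 * j) * hx4 -
      (-a * x * i - a * y ^ 3 * j) * hX + y ^ 3 * j ^ 3 * ha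

end FLTAgent.EllFrob
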