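import Fermat.Agent.EllFrob.Defs

/-!
# Frobenius over `ZMod 2`, by explicit formulas

`frobRel_two_supersingular` and `frobRel_two_ordinary`: `FrobRel` for the normal forms
`y² + y = x³ + a₄ x + a₆` and `y² + x y = x³ + a₂ x² + 1`. The trace is counted by `decide`, and
on generic points both sides are computed with given slopes, checked by `linear_combination`.
`card_eq_count` (affine point count plus one) holds for every `ℓ` and is also used at `ℓ = 3`.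
-/

set_option autoImplicit false

noncomputable section

open WeierstrassCurve
open scoped WeierstrassCurve.Affine

namespace FLTAgent.EllFrob

/-- Affine point count. -/
theorem card_eq_count {ℓ : ℕ} [Fact ℓ.Prime] {E : WeierstrassCurve (ZMod ℓ)} (hΔ : E.Δ ≠ 0) :
    E.card = (Finset.univ.filter fun p : ZMod ℓ × ZMod ℓ =>
      p.2 ^ 2 + E.a₁ * p.1 * p.2 + E.a₃ * p.2 =
        p.1 ^ 3 + E.a₂ * p.1 ^ 2 + E.a₄ * p.1 + E.a₆).card + 1 := by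
  have hns : ∀ x y : ZMod ℓ, E.toAffine.Nonsingular x y ↔ y ^ 2 + E.a₁ * x * y + E.a₃ * y =
      x ^ 3 + E.a₂ * x ^ 2 + E.a₄ * x + E.a₆ := fun x y => by
    rw [← Affine.equation_iff_nonsingular_of_Δ_ne_zero hΔ, Affine.equation_iff]
  let e : E.toAffine.Point ≃ Option {p : ZMod ℓ × ZMod ℓ // E.toAffine.Nonsingular p.1 p.2} :=
    { toFun := fun P => match P with
        | .zero => none
        | .some x y h => Option.some ⟨(x, y), h⟩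
      invFun := fun o => o.elim 0 fun p => .some p.1.1 p.1.2 p.2
      left_inv := fun P => by cases P <;> rfl
      right_inv := fun o => by cases o <;> rfl }
  classical
  rw [WeierstrassCurve.card, Nat.card_congr e, Nat.card_eq_fintype_card, Fintype.card_option,
    Fintype.card_subtype]
  simp only [hns]

section Formulas

variable {F : Type*} [Field F] [DecidableEq F] {W : Affine F}

/-- Sum of two affine points with prescribed slope. -/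
theorem add_eq_of_slope {x₁ x₂ y₁ y₂ l x₃ y₃ : F} (h₁ : W.Nonsingular x₁ y₁)
    (h₂ : W.Nonsingular x₂ y₂) (hne : ¬(x₁ = x₂ ∧ y₁ = W.negY x₂ y₂))
    (hl : W.slope x₁ x₂ y₁ y₂ = l) (hX : W.addX x₁ x₂ l = x₃) (hY : W.addY x₁ x₂ y₁ l = y₃) :
    ∃ h, (Affine.Point.some x₁ y₁ h₁ : W.Point) + .some x₂ y₂ h₂ = .some x₃ y₃ h := by
  subst hl hX hY
  exact ⟨_, Affine.Point.add_some hne⟩

theorem slope_eq_of_den {x y l : F} (hd : y - W.negY x y ≠ 0)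
    (h : 3 * x ^ 2 + 2 * W.a₂ * x + W.a₄ - W.a₁ * y = l * (y - W.negY x y)) :
    W.slope x x y y = l := by
  rw [Affine.slope_of_Y_ne rfl (sub_ne_zero.mp hd), h, mul_div_assoc, div_self hd, mul_one]

theorem slope_eq_of_diff {x₁ x₂ y₁ y₂ l : F} (hd : x₁ ≠ x₂)
    (h : y₁ - y₂ = l * (x₁ - x₂)) : W.slope x₁ x₂ y₁ y₂ = l := by
  rw [Affine.slope_of_X_ne hd, h, mul_div_assoc, div_self (sub_ne_zero.mpr hd), mul_one]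

/-- `y² + y = x³ + d`: doubling is minus the square of Frobenius. -/
theorem two_supersingular_zero (htwo : (2 : F) = 0) (c₁ : W.a₁ = 0) (c₂ : W.a₂ = 0)
    (c₃ : W.a₃ = 1) (c₄ : W.a₄ = 0) (hd : W.a₆ ^ 2 = W.a₆) {x y : F} (h : W.Nonsingular x y)
    (hFF : W.Nonsingular ((x ^ 2) ^ 2) ((y ^ 2) ^ 2)) :
    (Affine.Point.some _ _ hFF : W.Point) + (.some x y h + .some x y h) = 0 := by
  have heq := (W.equation_iff x y).mp h.1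
  rw [c₁, c₂, c₃, c₄] at heq
  generalize hde : W.a₆ = d at heq hd
  have hden : y - W.negY x y ≠ 0 := by
    simp only [Affine.negY, c₁, c₃]
    exact fun e => one_ne_zero (by linear_combination e - y * htwo : (1 : F) = 0)
  obtain ⟨hn, e2⟩ := add_eq_of_slope h h (fun e => hden (sub_eq_zero.mpr e.2))
    (slope_eq_of_den (l := x ^ 2) hden (by
      simp only [Affine.negY, c₁, c₂, c₃, c₄]
      linear_combination (x ^ 2 - x ^ 2 * y) * htwo))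
    (x₃ := (x ^ 2) ^ 2) (y₃ := W.negY ((x ^ 2) ^ 2) ((y ^ 2) ^ 2))
    (by
      simp only [Affine.addX, c₁, c₂]
      linear_combination (-x) * htwo)
    (by
      simp only [Affine.addY, Affine.negAddY, Affine.addX, Affine.negY, c₁, c₂, c₃]
      linear_combination (1 + d + x ^ 3 + y + y ^ 2) * heq + (1) * hd + (d + d * x ^ 3 + 2 * x ^ 3 - y - y ^ 2 - y ^ 3) * htwo)
  rw [e2]
  exact Affine.Point.add_of_Y_eq rfl (Affine.negY_negY _ _).symm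

/-- `y² + y = x³ + x + d`: `F² + 2 = 2 F` or `-2 F` according to `d`. -/
theorem two_supersingular_one (htwo : (2 : F) = 0) (c₁ : W.a₁ = 0) (c₂ : W.a₂ = 0)
    (c₃ : W.a₃ = 1) (c₄ : W.a₄ = 1) (hd : W.a₆ ^ 2 = W.a₆) {x y : F} (h : W.Nonsingular x y)
    (hFF : W.Nonsingular ((x ^ 2) ^ 2) ((y ^ 2) ^ 2)) :
    ∃ hn h3, (Affine.Point.some x y h : W.Point) + .some x y h =
        .some (x ^ 4 + 1) ((x ^ 2 + 1) * (x ^ 4 + x + 1) + y + 1) hn ∧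
      (Affine.Point.some _ _ hFF : W.Point) +
          .some (x ^ 4 + 1) ((x ^ 2 + 1) * (x ^ 4 + x + 1) + y + 1) hn =
        .some (x ^ 8 + 1) (x ^ 12 + x ^ 8 + x ^ 4 + y ^ 4 + 1) h3 := by
  have heq := (W.equation_iff x y).mp h.1
  rw [c₁, c₂, c₃, c₄] at heq
  generalize hde : W.a₆ = d at heq hd
  have hden : y - W.negY x y ≠ 0 := by
    simp only [Affine.negY, c₁, c₃]
    exact fun e => one_ne_zero (by linear_combination e - y * htwo : (1 : F) = 0)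
  obtain ⟨hn, e2⟩ := add_eq_of_slope h h (fun e => hden (sub_eq_zero.mpr e.2))
    (slope_eq_of_den (l := x ^ 2 + 1) hden (by
      simp only [Affine.negY, c₁, c₂, c₃, c₄]
      linear_combination (x ^ 2 - x ^ 2 * y - y) * htwo))
    (x₃ := x ^ 4 + 1) (y₃ := (x ^ 2 + 1) * (x ^ 4 + x + 1) + y + 1)
    (by
      simp only [Affine.addX, c₁, c₂]
      linear_combination (-x + x ^ 2) * htwo)
    (by
      simp only [Affine.addY, Affine.negAddY, Affine.addX, Affine.negY, c₁, c₂, c₃]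
      linear_combination (-2 + x - 2 * x ^ 2 + x ^ 3 - 2 * x ^ 4 - x ^ 6 - y) * htwo)
  have hx' : (x ^ 2) ^ 2 ≠ x ^ 4 + 1 := fun e =>
    one_ne_zero (by linear_combination -e : (1 : F) = 0)
  obtain ⟨h3, e3⟩ := add_eq_of_slope hFF hn (fun e => hx' e.1)
    (slope_eq_of_diff (l := x ^ 4) hx' (by
      linear_combination (1 + d + x + x ^ 3 + y + y ^ 2) * heq + (1) * hd + (-1 + d + d * x + d * x ^ 3 + x ^ 4 - y - y ^ 2 - y ^ 3) * htwo))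
    (x₃ := x ^ 8 + 1) (y₃ := x ^ 12 + x ^ 8 + x ^ 4 + y ^ 4 + 1)
    (by
      simp only [Affine.addX, c₁, c₂]
      linear_combination (-1 - x ^ 4) * htwo)
    (by
      simp only [Affine.addY, Affine.negAddY, Affine.addX, Affine.negY, c₁, c₂, c₃]
      linear_combination (-1 + x ^ 8 - x ^ 12 - y ^ 4) * htwo)
  exact ⟨hn, h3, e2, e3⟩

/-- `y² + x y = x³ + a x² + 1`: `F² + 2 = ∓F`. -/
theorem two_ordinary (htwo : (2 : F) = 0) (c₁ : W.a₁ = 1) (c₃ : W.a₃ = 0) (c₄ : W.a₄ = 0)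
    (c₆ : W.a₆ = 1) (ha : W.a₂ ^ 2 = W.a₂) {x y : F} (hx0 : x ≠ 0) (hx1 : x ≠ 1)
    (h : W.Nonsingular x y) (hFF : W.Nonsingular ((x ^ 2) ^ 2) ((y ^ 2) ^ 2))
    (hQ : W.Nonsingular (x ^ 2) (y ^ 2 + W.a₂ * x ^ 2)) :
    (Affine.Point.some _ _ hFF : W.Point) + .some _ _ hQ + (.some x y h + .some x y h) = 0 := by
  have heq := (W.equation_iff x y).mp h.1
  rw [c₁, c₃, c₄, c₆] at heq
  generalize hae : W.a₂ = a at heq ha hQ ⊢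
  obtain ⟨i, hi⟩ : ∃ i, x * i = 1 := ⟨x⁻¹, mul_inv_cancel₀ hx0⟩
  have hden : y - W.negY x y ≠ 0 := by
    simp only [Affine.negY, c₁, c₃]
    exact fun e => hx0 (by linear_combination e - y * htwo)
  have hx1' : x + 1 ≠ 0 := fun e => hx1 (by linear_combination e - htwo)
  have hx' : (x ^ 2) ^ 2 ≠ x ^ 2 := fun e => by
    have : x ^ 2 * ((x - 1) * (x + 1)) = 0 := by linear_combination e
    simp [hx0, hx1', sub_ne_zero.mpr hx1] at this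
  obtain ⟨h3, e3⟩ := add_eq_of_slope hFF hQ (fun e => hx' e.1)
    (slope_eq_of_diff (l := (y ^ 2 + x ^ 4 + (1 - a) * x ^ 2 + 1) * i ^ 2) hx' (by
      linear_combination (1 + a * i * x ^ 3 + a * i * x ^ 5 + a * x ^ 2 + a * x ^ 4 + i * x + i * x * y ^ 2 + i * x ^ 3 * y ^ 2 + i * x ^ 7 + x ^ 2 * y ^ 2 + x ^ 6 + y ^ 2) * hi + (1 + a * x ^ 2 + x * y + x ^ 3 + y ^ 2) * heq + (x ^ 4) * ha + (1 - a * i ^ 2 * x ^ 4 + a * x ^ 2 + a * x ^ 4 + a * x ^ 5 - i ^ 2 * x ^ 4 * y ^ 2 - i ^ 2 * x ^ 8 - x * y ^ 3 + x ^ 3 + x ^ 6) * htwo))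
    (x₃ := (x ^ 4 + 1) * i ^ 2)
    (by
      simp only [Affine.addX, c₁, hae]
      linear_combination (a ^ 2 + a ^ 2 * i * x + a ^ 2 * i ^ 2 * x ^ 2 + a ^ 2 * i ^ 3 * x ^ 3 + i * x ^ 3 + i * x ^ 5 + i ^ 2 + i ^ 2 * x * y + i ^ 2 * x ^ 2 + i ^ 2 * x ^ 3 + i ^ 2 * x ^ 4 + i ^ 2 * x ^ 6 + i ^ 3 * x + i ^ 3 * x ^ 2 * y + i ^ 3 * x ^ 3 + i ^ 3 * x ^ 4 + i ^ 3 * x ^ 5 + i ^ 3 * x ^ 7 + x ^ 2 + x ^ 4) * hi + (a * i ^ 4 * x ^ 2 + i ^ 2 + i ^ 4 + i ^ 4 * x * y + i ^ 4 * x ^ 2 + i ^ 4 * x ^ 3 + i ^ 4 * y ^ 2) * heq + (1 + i ^ 4 * x ^ 4) * ha + (-a * i ^ 4 * x ^ 2 * y ^ 2 + a * i ^ 4 * x ^ 5 - a * i ^ 4 * x ^ 6 + i ^ 2 + i ^ 2 * x ^ 2 + i ^ 2 * x ^ 3 + i ^ 4 - i ^ 4 * x * y ^ 3 + i ^ 4 * x ^ 2 + i ^ 4 * x ^ 3 - i ^ 4 * x ^ 3 * y + i ^ 4 * x ^ 4 + i ^ 4 * x ^ 4 * y ^ 2 + i ^ 4 * x ^ 6 + i ^ 4 * y ^ 2) * htwo) rfl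
  obtain ⟨hn, e2⟩ := add_eq_of_slope h h (fun e => hden (sub_eq_zero.mpr e.2))
    (slope_eq_of_den (l := (x ^ 2 + y) * i) hden (by
      simp only [Affine.negY, c₁, c₃, c₄, hae]
      linear_combination (x ^ 2 + y) * hi + (a * x - i * x * y - i * x ^ 2 * y - i * x ^ 3 - i * y ^ 2 + 2 * x ^ 2) * htwo))
    (x₃ := (x ^ 4 + 1) * i ^ 2)
    (by
      simp only [Affine.addX, c₁, hae]
      linear_combination (a + a * i * x + i * x ^ 2 + i * y) * hi + (i ^ 2) * heq + (i * x ^ 2 + i * y - i ^ 2 * x * y + i ^ 2 * x ^ 2 * y - x) * htwo) rfl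
  rw [e3, e2]
  refine Affine.Point.add_of_Y_eq rfl ?_
  simp only [Affine.addY, Affine.negAddY, Affine.addX, Affine.negY, c₁, c₃, hae]
  linear_combination (a + a * i * x + a * i * x ^ 5 + a * i * y + a * i ^ 2 * x * y + a * i ^ 2 * x ^ 2 + a * i ^ 2 * x ^ 6 + a * i ^ 3 * x ^ 7 + a * i ^ 4 + a * i ^ 4 * x ^ 2 + a * i ^ 4 * x ^ 3 * y + a * i ^ 4 * x ^ 5 + a * i ^ 4 * x ^ 6 + a * i ^ 4 * x ^ 8 + a * i ^ 4 * y ^ 4 + a * i ^ 5 * x + a * i ^ 5 * x * y ^ 4 + a * i ^ 5 * x ^ 3 + a * i ^ 5 * x ^ 4 * y + a * i ^ 5 * x ^ 6 + a * i ^ 5 * x ^ 7 + a * i ^ 5 * x ^ 9 + a * x ^ 4 + a ^ 2 * i * x ^ 3 + a ^ 2 * i ^ 2 + a ^ 2 * i ^ 2 * x ^ 2 + a ^ 2 * i ^ 2 * x ^ 4 + a ^ 2 * i ^ 2 * y ^ 2 + a ^ 2 * i ^ 3 * x + a ^ 2 * i ^ 3 * x * y ^ 2 + a ^ 2 * i ^ 3 * x ^ 3 + a ^ 2 * i ^ 3 * x ^ 5 + a ^ 2 * i ^ 4 * x ^ 2 + a ^ 2 * i ^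 4 * x ^ 2 * y ^ 2 + a ^ 2 * i ^ 4 * x ^ 4 + a ^ 2 * i ^ 4 * x ^ 6 + a ^ 2 * i ^ 5 * x ^ 3 + a ^ 2 * i ^ 5 * x ^ 3 * y ^ 2 + a ^ 2 * i ^ 5 * x ^ 5 + a ^ 2 * i ^ 5 * x ^ 7 + a ^ 2 * x ^ 2 + a ^ 3 + a ^ 3 * i * x + a ^ 3 * i ^ 2 * x ^ 2 + a ^ 3 * i ^ 3 * x ^ 3 + a ^ 3 * i ^ 4 * x ^ 4 + a ^ 3 * i ^ 5 * x ^ 5 + i + i * x * y + i * x * y ^ 2 + i * x ^ 2 + i * x ^ 2 * y + i * x ^ 3 + i * x ^ 3 * y ^ 2 + i * x ^ 4 + i * x ^ 5 + i * x ^ 7 + i * y + i * y ^ 2 + i ^ 2 + i ^ 2 * x + i ^ 2 * x * y + i ^ 2 * x * y ^ 2 + i ^ 2 * x ^ 2 + i ^ 2 * x ^ 2 * y + i ^ 2 * x ^ 3 + i ^ 2 * x ^ 4 * y ^ 2 + i ^ 2 * x ^ 6 + i ^ 2 * x ^ 8 + i ^ 2 * y ^ 2 + i ^ 2 * y ^ 4 + i ^ 3 * x * y ^ 2 + i ^ 3 * x * y ^ 4 + i ^ 3 * x ^ 2 + i ^ 3 * x ^ 3 + i ^ 3 * x ^ 4 * y + i ^ 3 * x ^ 5 * y ^ 2 + i ^ 3 * x ^ 6 + i ^ 3 * x ^ 7 + i ^ 3 * x ^ 9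 + i ^ 3 * y + i ^ 4 + i ^ 4 * x * y + i ^ 4 * x ^ 2 + i ^ 4 * x ^ 2 * y ^ 2 + i ^ 4 * x ^ 2 * y ^ 4 + i ^ 4 * x ^ 3 + i ^ 4 * x ^ 3 * y + i ^ 4 * x ^ 4 + i ^ 4 * x ^ 5 + i ^ 4 * x ^ 5 * y + i ^ 4 * x ^ 6 + i ^ 4 * x ^ 6 * y ^ 2 + i ^ 4 * x ^ 7 + i ^ 4 * x ^ 8 + i ^ 4 * x ^ 10 + i ^ 4 * y ^ 4 + i ^ 5 * x + i ^ 5 * x * y ^ 4 + i ^ 5 * x ^ 2 * y + i ^ 5 * x ^ 3 + i ^ 5 * x ^ 3 * y ^ 2 + i ^ 5 * x ^ 3 * y ^ 4 + i ^ 5 * x ^ 4 + i ^ 5 * x ^ 4 * y + i ^ 5 * x ^ 5 + i ^ 5 * x ^ 6 + i ^ 5 * x ^ 6 * y + i ^ 5 * x ^ 7 + i ^ 5 * x ^ 7 * y ^ 2 + i ^ 5 * x ^ 8 + i ^ 5 * x ^ 9 + i ^ 5 * x ^ 11 + x * y + x ^ 2 + x ^ 2 * y ^ 2 + x ^ 3 + x ^ 4 + x ^ 6 + y + y ^ 2) * hi + (a * i ^ 2 + a * i ^ 2 * x ^ 2 + a * i ^ 4 + a * i ^ 4 * x * y + a * i ^ 4 * x ^ 3 + a * i ^ 4 * y ^ 2 + a * i ^ 6 * x ^ 2 + a * i ^ 6 * x ^ 2 * y ^ 2 +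 a * i ^ 6 * x ^ 4 + a * x ^ 2 + a ^ 2 * i ^ 2 + a ^ 2 * i ^ 4 * x ^ 2 + a ^ 2 * i ^ 6 * x ^ 4 + i + i ^ 2 + i ^ 2 * x * y + i ^ 2 * x ^ 2 + i ^ 2 * x ^ 3 + i ^ 2 * y ^ 2 + i ^ 3 * x + i ^ 3 * y + i ^ 4 + i ^ 4 * x * y + i ^ 4 * x ^ 2 + i ^ 4 * x ^ 3 + i ^ 4 * y ^ 2 + i ^ 6 + i ^ 6 * x * y + i ^ 6 * x * y ^ 3 + i ^ 6 * x ^ 2 * y ^ 2 + i ^ 6 * x ^ 3 + i ^ 6 * x ^ 3 * y + i ^ 6 * x ^ 3 * y ^ 2 + i ^ 6 * x ^ 4 + i ^ 6 * x ^ 5 + i ^ 6 * x ^ 6 + i ^ 6 * y ^ 4 + x * y + x ^ 3 + y ^ 2) * heq + (1 + a + a * i ^ 2 * x ^ 2 + a * i ^ 4 * x ^ 4 + a * i ^ 6 * x ^ 6 + i ^ 2 * x * y + i ^ 2 * x ^ 3 + i ^ 2 * x ^ 4 + i ^ 4 * x ^ 4 + i ^ 6 * x ^ 5 * y + i ^ 6 * x ^ 7 + x ^ 2 + x ^ 4) * ha + (2 * a + a * i * x ^ 2 + a * i * y + a * i ^ 2 + 2 * a * i ^ 2 * x ^ 2 + a * i ^ 2 * x ^ 3 + a * i ^ 2 * x ^ 4 + a * i ^ 2 * x ^ 5 -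 a * i ^ 2 * x ^ 6 + a * i ^ 4 - a * i ^ 4 * x * y ^ 3 + 3 * a * i ^ 4 * x ^ 2 + 2 * a * i ^ 4 * x ^ 2 * y ^ 2 + a * i ^ 4 * x ^ 3 + a * i ^ 4 * x ^ 3 * y + 3 * a * i ^ 4 * x ^ 4 + a * i ^ 4 * x ^ 5 + 3 * a * i ^ 4 * x ^ 6 + 2 * a * i ^ 6 * x ^ 2 + 3 * a * i ^ 6 * x ^ 2 * y ^ 2 + a * i ^ 6 * x ^ 2 * y ^ 4 + 3 * a * i ^ 6 * x ^ 4 + 3 * a * i ^ 6 * x ^ 4 * y ^ 2 + a * i ^ 6 * x ^ 5 + a * i ^ 6 * x ^ 5 * y ^ 2 + 5 * a * i ^ 6 * x ^ 6 + 3 * a * i ^ 6 * x ^ 6 * y ^ 2 + a * i ^ 6 * x ^ 7 + 3 * a * i ^ 6 * x ^ 8 + a * i ^ 6 * x ^ 10 + a * x ^ 2 + a * x ^ 4 + a * x ^ 5 + a ^ 2 * i ^ 2 - a ^ 2 * i ^ 2 * x * y + a ^ 2 * i ^ 2 * x ^ 2 + a ^ 2 * i ^ 4 * x ^ 2 - a ^ 2 * i ^ 4 * x ^ 4 + a ^ 2 * i ^ 4 * x ^ 5 - a ^ 2 * i ^ 6 * x ^ 4 - 2 * a ^ 2 * i ^ 6 * x ^ 4 * y ^ 2 - a ^ 2 * i ^ 6 * x ^ 5 * y - a ^ 2 * i ^ 6 * x ^ 6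 - 2 * a ^ 2 * i ^ 6 * x ^ 8 + i + i * x * y + 2 * i * x ^ 3 + i ^ 2 - i ^ 2 * x * y ^ 3 + i ^ 2 * x ^ 2 - 2 * i ^ 2 * x ^ 2 * y - i ^ 2 * x ^ 2 * y ^ 2 + i ^ 2 * x ^ 3 - i ^ 2 * x ^ 3 * y + i ^ 2 * x ^ 4 * y ^ 2 + 2 * i ^ 2 * x ^ 6 + i ^ 2 * x ^ 8 - i ^ 2 * y ^ 2 - i ^ 3 * x * y ^ 2 - i ^ 3 * x ^ 2 * y - 2 * i ^ 3 * x ^ 2 * y ^ 2 - i ^ 3 * x ^ 4 * y + i ^ 3 * y - i ^ 3 * y ^ 3 - i ^ 4 * x * y ^ 3 - i ^ 4 * x ^ 2 - 3 * i ^ 4 * x ^ 2 * y ^ 2 + i ^ 4 * x ^ 3 - 3 * i ^ 4 * x ^ 4 - 2 * i ^ 4 * x ^ 4 * y ^ 2 + i ^ 4 * x ^ 5 - i ^ 4 * x ^ 6 - i ^ 4 * x ^ 8 - 2 * i ^ 4 * y ^ 2 - i ^ 4 * y ^ 4 - i ^ 6 * x * y ^ 5 - 2 * i ^ 6 * x ^ 2 - 3 * i ^ 6 * x ^ 2 * y ^ 2 - 3 * i ^ 6 * x ^ 2 * y ^ 4 + i ^ 6 * x ^ 3 - i ^ 6 * x ^ 3 * y ^ 3 - 3 * i ^ 6 * x ^ 4 - 6 * i ^ 6 * x ^ 4 * y ^ 2 - 2 * i ^ 6 * x ^ 4 * y ^ 4 - i ^ 6 *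 x ^ 5 * y - 3 * i ^ 6 * x ^ 6 - 3 * i ^ 6 * x ^ 6 * y ^ 2 - i ^ 6 * x ^ 7 * y - 3 * i ^ 6 * x ^ 8 - 2 * i ^ 6 * x ^ 8 * y ^ 2 - 2 * i ^ 6 * x ^ 10 - i ^ 6 * x ^ 12 - 2 * i ^ 6 * y ^ 2 - i ^ 6 * y ^ 4 - i ^ 6 * y ^ 6 + x + x * y - x * y ^ 3 + x ^ 2 + x ^ 3 + x ^ 4 + x ^ 6 + y ^ 2 - y ^ 4) * htwo

end Formulas

variable {k : Type} [Field k] [DecidableEq k] [Algebra (ZMod 2) k]

theorem map_sq_eq_self (c : ZMod 2) : algebraMap (ZMod 2) k c ^ 2 = algebraMap (ZMod 2) k c := by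
  rw [← map_pow, ZMod.pow_card]

theorem two_eq_zero_of_algebra : (2 : k) = 0 := by
  rw [← map_ofNat (algebraMap (ZMod 2) k) 2, show (2 : ZMod 2) = 0 from rfl, map_zero]

/-- `j = 0` models over `ZMod 2`. -/
theorem frobRel_two_supersingular [IsAlgClosed k] {E : WeierstrassCurve (ZMod 2)}
    (h₁ : E.a₁ = 0) (h₂ : E.a₂ = 0) (h₃ : E.a₃ = 1) (hΔ : E.Δ ≠ 0) : FrobRel k E := by
  have htwo : (2 : k) = 0 := two_eq_zero_of_algebra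
  refine FrobRel.of_generic hΔ ∅ fun x y hxy _ => ?_
  have ht : E.traceOfFrobenius = 3 - ((Finset.univ.filter fun p : ZMod 2 × ZMod 2 =>
      p.2 ^ 2 + p.2 = p.1 ^ 3 + E.a₄ * p.1 + E.a₆).card + 1 : ℕ) := by
    rw [WeierstrassCurve.traceOfFrobenius, card_eq_count hΔ, Nat.card_zmod]
    simp [h₁, h₂, h₃]
  have c₁ : (E⁄k).toAffine.a₁ = 0 := (congrArg (algebraMap (ZMod 2) k) h₁).trans (map_zero _)
  have c₂ : (E⁄k).toAffine.a₂ = 0 := (congrArg (algebraMap (ZMod 2) k) h₂).trans (map_zero _)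
  have c₃ : (E⁄k).toAffine.a₃ = 1 := (congrArg (algebraMap (ZMod 2) k) h₃).trans (map_one _)
  have hd : (E⁄k).toAffine.a₆ ^ 2 = (E⁄k).toAffine.a₆ := map_sq_eq_self E.a₆
  obtain ⟨hF, eF⟩ := frobPoint_some hxy
  obtain ⟨hFF, eFF⟩ := frobPoint_some hF
  rw [frobPoly_apply, eF, eFF, Nat.cast_ofNat, two_zsmul]
  rcases (show ∀ c : ZMod 2, c = 0 ∨ c = 1 by decide) E.a₄ with h₄ | h₄
  · have ht0 : E.traceOfFrobenius = 0 := by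
      rw [ht, h₄]
      exact (show ∀ d : ZMod 2, (3 : ℤ) - ((Finset.univ.filter fun p : ZMod 2 × ZMod 2 =>
        p.2 ^ 2 + p.2 = p.1 ^ 3 + 0 * p.1 + d).card + 1 : ℕ) = 0 by decide) _
    rw [ht0, zero_smul, sub_zero]
    exact two_supersingular_zero htwo c₁ c₂ c₃
      ((congrArg (algebraMap (ZMod 2) k) h₄).trans (map_zero _)) hd hxy hFF
  · obtain ⟨hn, h3, e2, e3⟩ := two_supersingular_one htwo c₁ c₂ c₃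
      ((congrArg (algebraMap (ZMod 2) k) h₄).trans (map_one _)) hd hxy hFF
    obtain ⟨hF2, eF2⟩ := frobPoint_some hn
    rw [← e2, map_add, eF] at eF2
    rw [e2, sub_add_eq_add_sub, e3, sub_eq_zero]
    have heq := ((E⁄k).toAffine.equation_iff x y).mp hxy.1
    rw [c₁, c₂, c₃, show (E⁄k).toAffine.a₄ = 1 from
      (congrArg (algebraMap (ZMod 2) k) h₄).trans (map_one _)] at heq
    rcases (show ∀ c : ZMod 2, c = 0 ∨ c = 1 by decide) E.a₆ with h₆ | h₆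
    · rw [show (E⁄k).toAffine.a₆ = 0 from
        (congrArg (algebraMap (ZMod 2) k) h₆).trans (map_zero _)] at heq
      have ht' : E.traceOfFrobenius = -2 := by rw [ht, h₄, h₆]; decide
      rw [ht', neg_smul, two_zsmul, eF2, Affine.Point.neg_some]
      simp only [Affine.Point.some.injEq, Affine.negY, c₁, c₃]
      refine ⟨?_, ?_⟩
      · linear_combination (-x ^ 4) * htwo
      · linear_combination (x + x ^ 3 + y + y ^ 2) * heq + (3 + 2 * x + x * y + 3 * x ^ 2 + x ^ 2 * y + 3 * x ^ 3 + x ^ 3 * y + 5 * x ^ 4 + x ^ 4 * y + 2 * x ^ 5 + 4 * x ^ 6 + x ^ 6 * y + 2 * x ^ 7 + 2 * x ^ 8 + x ^ 9 + x ^ 10 + x ^ 12 + 2 * y - y ^ 3) * htwo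
    · rw [show (E⁄k).toAffine.a₆ = 1 from
        (congrArg (algebraMap (ZMod 2) k) h₆).trans (map_one _)] at heq
      have ht' : E.traceOfFrobenius = 2 := by rw [ht, h₄, h₆]; decide
      rw [ht', two_zsmul, eF2]
      simp only [Affine.Point.some.injEq]
      refine ⟨?_, ?_⟩
      · linear_combination (-x ^ 4) * htwo
      · linear_combination (1 + x + x ^ 3 + y + y ^ 2) * heq + (-1 - x - x * y - 2 * x ^ 2 - x ^ 2 * y - 2 * x ^ 3 - x ^ 3 * y - 2 * x ^ 4 - x ^ 4 * y - 2 * x ^ 5 - 3 * x ^ 6 - x ^ 6 * y - 2 * x ^ 7 - x ^ 8 - x ^ 9 - x ^ 10 - 2 * y - y ^ 2 - y ^ 3) * htwo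

/-- `j ≠ 0` models over `ZMod 2`. -/
theorem frobRel_two_ordinary [IsAlgClosed k] {E : WeierstrassCurve (ZMod 2)}
    (h₁ : E.a₁ = 1) (h₃ : E.a₃ = 0) (h₄ : E.a₄ = 0) (h₆ : E.a₆ = 1) (hΔ : E.Δ ≠ 0) :
    FrobRel k E := by
  have htwo : (2 : k) = 0 := two_eq_zero_of_algebra
  refine FrobRel.of_generic hΔ {0, 1} fun x y hxy hx => ?_
  simp only [Finset.mem_insert, Finset.mem_singleton, not_or] at hx
  have ht : E.traceOfFrobenius = 3 - ((Finset.univ.filter fun p : ZMod 2 × ZMod 2 =>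
      p.2 ^ 2 + p.1 * p.2 = p.1 ^ 3 + E.a₂ * p.1 ^ 2 + 1).card + 1 : ℕ) := by
    rw [WeierstrassCurve.traceOfFrobenius, card_eq_count hΔ, Nat.card_zmod]
    simp [h₁, h₃, h₄, h₆]
  have c₁ : (E⁄k).toAffine.a₁ = 1 := (congrArg (algebraMap (ZMod 2) k) h₁).trans (map_one _)
  have c₃ : (E⁄k).toAffine.a₃ = 0 := (congrArg (algebraMap (ZMod 2) k) h₃).trans (map_zero _)
  have c₄ : (E⁄k).toAffine.a₄ = 0 := (congrArg (algebraMap (ZMod 2) k) h₄).trans (map_zero _)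
  have c₆ : (E⁄k).toAffine.a₆ = 1 := (congrArg (algebraMap (ZMod 2) k) h₆).trans (map_one _)
  have ha : (E⁄k).toAffine.a₂ ^ 2 = (E⁄k).toAffine.a₂ := map_sq_eq_self E.a₂
  obtain ⟨hF, eF⟩ := frobPoint_some hxy
  obtain ⟨hFF, eFF⟩ := frobPoint_some hF
  have key := two_ordinary htwo c₁ c₃ c₄ c₆ ha hx.1 hx.2 hxy hFF
  rw [frobPoly_apply, eF, eFF, Nat.cast_ofNat, two_zsmul]
  rcases (show ∀ c : ZMod 2, c = 0 ∨ c = 1 by decide) E.a₂ with h₂ | h₂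
  · have c₂ : (E⁄k).toAffine.a₂ = 0 := (congrArg (algebraMap (ZMod 2) k) h₂).trans (map_zero _)
    have ht' : E.traceOfFrobenius = -1 := by rw [ht, h₂]; decide
    rw [ht', neg_one_zsmul, sub_neg_eq_add]
    simp only [c₂, zero_mul, add_zero] at key
    exact key hF
  · have c₂ : (E⁄k).toAffine.a₂ = 1 := (congrArg (algebraMap (ZMod 2) k) h₂).trans (map_one _)
    have ht' : E.traceOfFrobenius = 1 := by rw [ht, h₂]; decide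
    rw [ht', one_zsmul, sub_eq_add_neg, Affine.Point.neg_some]
    have hy : (E⁄k).toAffine.negY (x ^ 2) (y ^ 2) =
        y ^ 2 + (E⁄k).toAffine.a₂ * x ^ 2 := by
      simp only [Affine.negY, c₁, c₂, c₃]
      linear_combination (-y ^ 2 - x ^ 2) * htwo
    simp only [hy]
    exact key (hy ▸ (Affine.nonsingular_neg _ _).mpr hF)

end FLTAgent.EllFrob
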