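import Fermat.Agent.EllLocal.VarChange
import Fermat.Prelude.Def_FLTPrelim_Modularity
import Mathlib

/-!
# The characteristic equation of Frobenius over `ZMod ℓ`: generalities

`frobPoly` is `F² - t F + ℓ` on the points over an extension field `k` and `FrobRel` says that
twice it is zero. The property descends along changes of variables (`FrobRel.of_variableChange`),
and over an algebraically closed field it is enough to check it on points with `x` outside a
finite set (`FrobRel.of_generic`), as every point is a difference of two such points.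
-/

set_option autoImplicit false

noncomputable section

open WeierstrassCurve
open scoped WeierstrassCurve.Affine

namespace FLTAgent.EllFrob

variable {ℓ : ℕ} [Fact ℓ.Prime]
variable (k : Type) [Field k] [DecidableEq k] [Algebra (ZMod ℓ) k]

/-- The Frobenius endomorphism on points. -/
def frobPoint (E : WeierstrassCurve (ZMod ℓ)) :
    (E⁄k).toAffine.Point →+ (E⁄k).toAffine.Point :=
  Affine.Point.map (W' := E) (FiniteField.frobeniusAlgHom (ZMod ℓ) k)

/-- `F² - t F + ℓ` as an endomorphism of the points. -/
def frobPoly (E : WeierstrassCurve (ZMod ℓ)) :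
    (E⁄k).toAffine.Point →+ (E⁄k).toAffine.Point :=
  (frobPoint k E).comp (frobPoint k E) - E.traceOfFrobenius • frobPoint k E +
    (ℓ : ℤ) • AddMonoidHom.id _

theorem frobPoly_apply (E : WeierstrassCurve (ZMod ℓ)) (T : (E⁄k).toAffine.Point) :
    frobPoly k E T =
      frobPoint k E (frobPoint k E T) - E.traceOfFrobenius • frobPoint k E T + (ℓ : ℤ) • T :=
  rfl

/-- The characteristic equation, up to `2`-torsion. -/
def FrobRel (E : WeierstrassCurve (ZMod ℓ)) : Prop :=
  ∀ T : (E⁄k).toAffine.Point, (2 : ℕ) • frobPoly k E T = 0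

variable {k}

theorem frobPoint_some {E : WeierstrassCurve (ZMod ℓ)} {x y : k}
    (h : (E⁄k).toAffine.Nonsingular x y) :
    ∃ h', frobPoint k E (.some x y h) = .some (x ^ ℓ) (y ^ ℓ) h' := by
  set f := FiniteField.frobeniusAlgHom (ZMod ℓ) k with hf
  have e : ∀ z, f z = z ^ ℓ := fun z => by
    rw [hf, FiniteField.coe_frobeniusAlgHom]; simp
  have h' := (Affine.baseChange_nonsingular (W := E.toAffine) f.injective x y).mpr h
  have h'' : (E⁄k).toAffine.Nonsingular (x ^ ℓ) (y ^ ℓ) := by rw [← e, ← e]; exact h'
  refine ⟨h'', ?_⟩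
  show Affine.Point.some (f x) (f y) _ = _
  simp only [e]

/-! ### Changes of variables -/

/-- Transport of points along an equality of curves. -/
def castHom {F : Type*} [Field F] [DecidableEq F] {W W' : Affine F} (h : W = W') :
    W.Point →+ W'.Point := h ▸ AddMonoidHom.id _

theorem castHom_injective {F : Type*} [Field F] [DecidableEq F] {W W' : Affine F} (h : W = W') :
    Function.Injective (castHom h) := by
  subst h; exact Function.injective_id

theorem castHom_some {F : Type*} [Field F] [DecidableEq F] {W W' : Affine F} (h : W = W')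
    {x y : F} (hxy : W.Nonsingular x y) :
    castHom h (.some x y hxy) = .some x y (h ▸ hxy) := by
  subst h; rfl

variable (k) in
/-- The map on `k`-points induced by a change of variables over `ZMod ℓ`. -/
def vcHom (E : WeierstrassCurve (ZMod ℓ)) (C : VariableChange (ZMod ℓ)) :
    (E⁄k).toAffine.Point →+ ((C • E)⁄k).toAffine.Point :=
  (castHom (congrArg WeierstrassCurve.toAffine (map_variableChange (W := E) (C := C)
    (φ := algebraMap (ZMod ℓ) k)))).comp
    (EllLocal.vcPoint ((E⁄k).toAffine) (C.map (algebraMap (ZMod ℓ) k)))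

theorem vcHom_injective (E : WeierstrassCurve (ZMod ℓ)) (C : VariableChange (ZMod ℓ)) :
    Function.Injective (vcHom k E C) :=
  (castHom_injective _).comp (EllLocal.vcPoint_injective _)

theorem vcHom_some {E : WeierstrassCurve (ZMod ℓ)} {C : VariableChange (ZMod ℓ)} {x y : k}
    (h : (E⁄k).toAffine.Nonsingular x y) :
    ∃ h', vcHom k E C (.some x y h) = .some (EllLocal.vcX (C.map (algebraMap (ZMod ℓ) k)) x)
      (EllLocal.vcY (C.map (algebraMap (ZMod ℓ) k)) x y) h' :=
  ⟨_, castHom_some _ _⟩

theorem vcHom_frobPoint (E : WeierstrassCurve (ZMod ℓ)) (C : VariableChange (ZMod ℓ))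
    (T : (E⁄k).toAffine.Point) :
    vcHom k E C (frobPoint k E T) = frobPoint k (C • E) (vcHom k E C T) := by
  cases T with
  | zero => simp [← Affine.Point.zero_def]
  | some x y h =>
    set Ck := C.map (algebraMap (ZMod ℓ) k) with hCk
    let σ : k →+* k := (FiniteField.frobeniusAlgHom (ZMod ℓ) k).toRingHom
    have hσ : ∀ z, σ z = z ^ ℓ := fun z => by simp [σ]
    have hC : Ck.map σ = Ck := by
      rw [hCk, VariableChange.map_map]
      congr 1
      exact (FiniteField.frobeniusAlgHom (ZMod ℓ) k).comp_algebraMap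
    obtain ⟨h₁, e₁⟩ := frobPoint_some h
    obtain ⟨n₁, v₁⟩ := vcHom_some (C := C) h₁
    obtain ⟨n₀, v₀⟩ := vcHom_some (C := C) h
    obtain ⟨h₂, e₂⟩ := frobPoint_some n₀
    rw [e₁, v₁, v₀, e₂]
    simp only [Affine.Point.some.injEq, ← hσ]
    exact ⟨(EllLocal.map_vcX Ck hC x).symm, (EllLocal.map_vcY Ck hC x y).symm⟩

theorem card_variableChange (E : WeierstrassCurve (ZMod ℓ)) (C : VariableChange (ZMod ℓ)) :
    (C • E).card = E.card := by
  refine le_antisymm ?_ ?_
  · exact Nat.card_le_card_of_injective
      ((castHom (congrArg WeierstrassCurve.toAffine (inv_smul_smul C E))).comp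
        (EllLocal.vcPoint (C • E).toAffine C⁻¹))
      ((castHom_injective _).comp (EllLocal.vcPoint_injective _))
  · exact Nat.card_le_card_of_injective (EllLocal.vcPoint E.toAffine C)
      (EllLocal.vcPoint_injective _)

theorem FrobRel.of_variableChange {E : WeierstrassCurve (ZMod ℓ)} {C : VariableChange (ZMod ℓ)}
    (h : FrobRel k (C • E)) : FrobRel k E := by
  intro T
  apply vcHom_injective E C
  have ht : (C • E).traceOfFrobenius = E.traceOfFrobenius := by
    rw [WeierstrassCurve.traceOfFrobenius, WeierstrassCurve.traceOfFrobenius, card_variableChange]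
  rw [map_nsmul, frobPoly_apply, map_add, map_sub, map_zsmul, map_zsmul, vcHom_frobPoint,
    vcHom_frobPoint, map_zero, ← ht, ← frobPoly_apply]
  exact h _

/-! ### Generic points -/

omit [DecidableEq k] in
theorem exists_point_above [IsAlgClosed k] {W : Affine k} (hΔ : W.Δ ≠ 0) (x : k) :
    ∃ y, W.Nonsingular x y := by
  obtain ⟨y, hy⟩ := IsAlgClosed.exists_root
    (Polynomial.C 1 * Polynomial.X ^ 2 + Polynomial.C (W.a₁ * x + W.a₃) * Polynomial.X +
      Polynomial.C (-(x ^ 3 + W.a₂ * x ^ 2 + W.a₄ * x + W.a₆)))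
    (by rw [Polynomial.degree_quadratic one_ne_zero]; decide)
  refine ⟨y, (Affine.equation_iff_nonsingular_of_Δ_ne_zero hΔ).1 ?_⟩
  rw [Affine.equation_iff]
  simp only [Polynomial.IsRoot, Polynomial.eval_add, Polynomial.eval_mul, Polynomial.eval_C,
    Polynomial.eval_pow, Polynomial.eval_X] at hy
  linear_combination hy

omit [DecidableEq k] in
theorem infinite_point [IsAlgClosed k] {W : Affine k} (hΔ : W.Δ ≠ 0) : Infinite W.Point := by
  refine Infinite.of_surjective
    (fun P : W.Point => match P with | .zero => (0 : k) | .some x _ _ => x) fun x => ?_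
  obtain ⟨y, hy⟩ := exists_point_above hΔ x
  exact ⟨.some x y hy, rfl⟩

/-- A homomorphism killing all points with `x` outside a finite set is zero. -/
theorem eq_zero_of_generic [IsAlgClosed k] {W : Affine k} (hΔ : W.Δ ≠ 0) {G : Type*}
    [AddCommGroup G] (R : W.Point →+ G) (S : Finset k)
    (h : ∀ x y (hxy : W.Nonsingular x y), x ∉ S → R (.some x y hxy) = 0) (T : W.Point) :
    R T = 0 := by
  have := infinite_point hΔ
  set B : Set W.Point := {P | P = 0 ∨ ∃ x ∈ S, ∃ y hxy, P = .some x y hxy}
  have hB : B.Finite := by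
    let f : W.Point → Option (k × k) := fun P => match P with
      | .zero => none
      | .some x y _ => Option.some (x, y)
    have hf : Function.Injective f := by
      rintro (_ | ⟨x₁, y₁, h₁⟩) (_ | ⟨x₂, y₂, h₂⟩) he <;> simp [f] at he
      · rfl
      · obtain ⟨rfl, rfl⟩ := he; rfl
    have hY : ∀ x : k, {y : k | W.Equation x y}.Finite := fun x => by
      refine (Polynomial.finite_setOfPred_isRoot (p := Polynomial.C 1 * Polynomial.X ^ 2 +
        Polynomial.C (W.a₁ * x + W.a₃) * Polynomial.X +
        Polynomial.C (-(x ^ 3 + W.a₂ * x ^ 2 + W.a₄ * x + W.a₆))) ?_).subset fun y hy => ?_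
      · intro h0
        have h2 := Polynomial.degree_quadratic (b := W.a₁ * x + W.a₃)
          (c := -(x ^ 3 + W.a₂ * x ^ 2 + W.a₄ * x + W.a₆)) (one_ne_zero (α := k))
        rw [h0, Polynomial.degree_zero] at h2
        cases h2
      · have := (Affine.equation_iff _ _).mp hy
        simp only [Set.mem_ofPred_eq, Polynomial.IsRoot, Polynomial.eval_add, Polynomial.eval_mul,
          Polynomial.eval_C, Polynomial.eval_pow, Polynomial.eval_X]
        linear_combination this
    refine Set.Finite.of_finite_image (f := f) (((S.finite_toSet.biUnion fun x _ =>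
      (hY x).image fun y => Option.some (x, y)).insert none).subset ?_) hf.injOn
    rintro _ ⟨P, rfl | ⟨x, hx, y, hxy, rfl⟩, rfl⟩
    · exact Or.inl rfl
    · exact Or.inr (Set.mem_biUnion (Finset.mem_coe.mpr hx) ⟨y, hxy.1, rfl⟩)
  obtain ⟨Q, hQ⟩ := (hB.union (hB.preimage (f := fun P => T + P) (by
    intro a _ b _ hab; exact add_left_cancel hab))).infinite_compl.nonempty
  simp only [Set.mem_compl_iff, Set.mem_union, Set.mem_preimage, not_or] at hQ
  have hkill : ∀ P, P ∉ B → R P = 0 := fun P hP => by
    cases P with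
    | zero => exact absurd (Or.inl rfl) hP
    | some x y hxy => exact h x y hxy fun hx => hP (Or.inr ⟨x, hx, y, hxy, rfl⟩)
  have h1 := hkill _ hQ.2
  rwa [map_add, hkill _ hQ.1, add_zero] at h1

/-- It suffices to check the characteristic equation on generic points. -/
theorem FrobRel.of_generic [IsAlgClosed k] {E : WeierstrassCurve (ZMod ℓ)} (hΔ : E.Δ ≠ 0)
    (S : Finset k)
    (h : ∀ x y (hxy : (E⁄k).toAffine.Nonsingular x y), x ∉ S → frobPoly k E (.some x y hxy) = 0) :
    FrobRel k E := fun T => by
  rw [eq_zero_of_generic (W := (E⁄k).toAffine)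
    (by
      show (E.map (algebraMap (ZMod ℓ) k)).Δ ≠ 0
      rw [WeierstrassCurve.map_Δ]
      exact (map_ne_zero _).mpr hΔ)
    (frobPoly k E) S h T, smul_zero]

end FLTAgent.EllFrob
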