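import Fermat.Agent.EllLocal.Torsion

/-!
# The reduction homomorphism at a good place

For a Weierstrass model over a valuation subring with unit discriminant, `redPoint` is the
additive reduction map to the points of the reduced curve. Its kernel is `E₁`
(`mem_E1_of_redPoint_eq_zero`), so it is injective on torsion of order prime to the residue
characteristic (`eq_zero_of_redPoint_eq_zero`).
-/

set_option autoImplicit false

namespace FLTAgent.EllFrob

open WeierstrassCurve WeierstrassCurve.Affine FLTAgent.EllLocal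

variable {K : Type*} [Field K] {A : ValuationSubring K} {W₀ : WeierstrassCurve A}

local notation "π" => IsLocalRing.residue A

theorem nonsingular_residue (hΔ : π W₀.Δ ≠ 0) {x y : K} (h : (genCurve A W₀).Nonsingular x y)
    (hx : x ∈ A) :
    (redCurve A W₀).Nonsingular (π ⟨x, hx⟩) (π ⟨y, y_mem_of_x_mem h.1 hx⟩) :=
  (equation_iff_nonsingular_of_Δ_ne_zero (by rwa [map_Δ])).mp
    (IsLift.redEquation (P := Point.some x y h) (a := ⟨x, hx⟩) (b := ⟨y, y_mem_of_x_mem h.1 hx⟩)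
      ⟨h, rfl⟩)

open scoped Classical in
/-- Reduction of points. -/
noncomputable def redFun (hΔ : π W₀.Δ ≠ 0) : (genCurve A W₀).Point → (redCurve A W₀).Point
  | 0 => 0
  | .some x _ h => if hx : x ∈ A then .some _ _ (nonsingular_residue hΔ h hx) else 0

theorem redFun_of_inE1 (hΔ : π W₀.Δ ≠ 0) {P : (genCurve A W₀).Point} (h : InE1 P) :
    redFun hΔ P = 0 := by
  cases P with
  | zero => rfl
  | some x y hP => exact dif_neg h

theorem redFun_of_isLift (hΔ : π W₀.Δ ≠ 0) {P : (genCurve A W₀).Point} {a b : A}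
    (h : IsLift P a b) :
    ∃ h', redFun hΔ P = .some (π a) (π b) h' := by
  obtain ⟨h, rfl⟩ := h
  exact ⟨nonsingular_residue hΔ h a.2, dif_pos a.2⟩

variable [DecidableEq K] [DecidableEq (IsLocalRing.ResidueField A)]

/-- Reduction of points is additive. -/
theorem redFun_add (hΔ : π W₀.Δ ≠ 0) (P Q : (genCurve A W₀).Point) :
    redFun hΔ (P + Q) = redFun hΔ P + redFun hΔ Q := by
  rcases inE1_or_isLift P with hP | ⟨a₁, b₁, hP⟩ <;>
    rcases inE1_or_isLift Q with hQ | ⟨a₂, b₂, hQ⟩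
  · rw [redFun_of_inE1 hΔ hP, redFun_of_inE1 hΔ hQ, redFun_of_inE1 hΔ (hP.add hQ), add_zero]
  · obtain ⟨a₃, b₃, h₃, ha, hb⟩ := lift_add_inE1 hQ hP
    rw [add_comm] at h₃
    obtain ⟨_, e₂⟩ := redFun_of_isLift hΔ hQ
    obtain ⟨_, e₃⟩ := redFun_of_isLift hΔ h₃
    rw [redFun_of_inE1 hΔ hP, zero_add, e₂, e₃]
    simp only [ha, hb]
  · obtain ⟨a₃, b₃, h₃, ha, hb⟩ := lift_add_inE1 hP hQ
    obtain ⟨_, e₁⟩ := redFun_of_isLift hΔ hP
    obtain ⟨_, e₃⟩ := redFun_of_isLift hΔ h₃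
    rw [redFun_of_inE1 hΔ hQ, add_zero, e₁, e₃]
    simp only [ha, hb]
  · obtain ⟨n₁, e₁⟩ := redFun_of_isLift hΔ hP
    obtain ⟨n₂, e₂⟩ := redFun_of_isLift hΔ hQ
    rw [e₁, e₂]
    by_cases hc : π a₁ = π a₂ ∧ π b₁ = (redCurve A W₀).negY (π a₂) (π b₂)
    · rw [redFun_of_inE1 hΔ (add_inE1 hP hQ n₁ hc.1 hc.2), Point.add_of_Y_eq hc.1 hc.2]
    · obtain ⟨a₃, b₃, h₃, ha, hb⟩ := add_lift hP hQ hc
      obtain ⟨n₃, e₃⟩ := redFun_of_isLift hΔ h₃
      rw [e₃, Point.add_some hc]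
      simp only [ha, hb]

/-- The reduction homomorphism. -/
noncomputable def redPoint (hΔ : π W₀.Δ ≠ 0) :
    (genCurve A W₀).Point →+ (redCurve A W₀).Point :=
  AddMonoidHom.mk' (redFun hΔ) (redFun_add hΔ)

theorem redPoint_of_inE1 (hΔ : π W₀.Δ ≠ 0) {P : (genCurve A W₀).Point} (h : InE1 P) :
    redPoint hΔ P = 0 :=
  redFun_of_inE1 hΔ h

theorem redPoint_of_isLift (hΔ : π W₀.Δ ≠ 0) {P : (genCurve A W₀).Point} {a b : A}
    (h : IsLift P a b) :
    ∃ h', redPoint hΔ P = .some (π a) (π b) h' :=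
  redFun_of_isLift hΔ h

/-- The kernel of reduction is `E₁`. -/
theorem mem_E1_of_redPoint_eq_zero (hΔ : π W₀.Δ ≠ 0) {P : (genCurve A W₀).Point}
    (h : redPoint hΔ P = 0) : P ∈ E1 A W₀ := by
  rcases inE1_or_isLift P with hP | ⟨a, b, hP⟩
  · exact hP
  · obtain ⟨_, e⟩ := redPoint_of_isLift hΔ hP
    rw [e] at h
    exact absurd h (Point.some_ne_zero _)

/-- Reduction is injective on torsion prime to the residue characteristic. -/
theorem eq_zero_of_redPoint_eq_zero (hΔ : π W₀.Δ ≠ 0) {P : (genCurve A W₀).Point} {n : ℕ}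
    (hn : (n : IsLocalRing.ResidueField A) ≠ 0) (hP : n • P = 0) (h : redPoint hΔ P = 0) : P = 0 :=
  eq_zero_of_nsmul_eq_zero (mem_E1_of_redPoint_eq_zero hΔ h) hn hP

end FLTAgent.EllFrob
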