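import Fermat.Agent.EllP.Reduce
import Fermat.Agent.EllFrob.Reduce
import Fermat.Agent.EllFrob.AllChar
import Fermat.Agent.GalCommon.Basic
import Fermat.Prelude.Def_FLTPrelim_Modularity
import Fermat.Prelude.Def_EllipticCurve_FrobeniusTrace

/-!
# Frobenius on the torsion of an integral model at a good prime

`frobenius_relation`: a Frobenius element at a good prime `ℓ` satisfies `σ² - a_ℓ σ + ℓ = 0` on
torsion of odd order prime to `ℓ`. Reduction `redQ` turns `σ` into the Frobenius endomorphism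
(`redQ_smul`), `frobRel` kills twice the image, and reduction is injective on such torsion.
-/

set_option autoImplicit false

noncomputable section

open WeierstrassCurve
open scoped WeierstrassCurve.Affine

namespace FLTAgent.EllFrob

local notation "ℚ̄" => AlgebraicClosure ℚ
local notation "Γℚ" => (AlgebraicClosure ℚ ≃ₐ[ℚ] AlgebraicClosure ℚ)

variable {W : WeierstrassCurve ℤ} {ℓ : ℕ} {A : ValuationSubring ℚ̄}


/-- At a good prime the discriminant of the model is a unit at the place. -/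
theorem residue_Δ_ne_zero (hℓ : ℓ.Prime) (hgood : W.IsGoodPrimeFor ℓ) (hA : A.LiesOverPrime ℓ) :
    IsLocalRing.residue A (EllP.modelAt A W).Δ ≠ 0 := by
  rw [show (EllP.modelAt A W).Δ = ((W.Δ : ℤ) : A) from WeierstrassCurve.map_Δ _ _, Ne,
    ← GalCommon.coe_mem_nonunits_iff_residue]
  push_cast
  rwa [GalCommon.intCast_mem_nonunits_iff hℓ hA]

variable [Fact ℓ.Prime] [Algebra (ZMod ℓ) (IsLocalRing.ResidueField A)] [DecidableEq (IsLocalRing.ResidueField A)]

omit [DecidableEq (IsLocalRing.ResidueField A)] in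
theorem redCurve_eq :
    EllLocal.redCurve A (EllP.modelAt A W) = ((W.reductionMod ℓ)⁄(IsLocalRing.ResidueField A)).toAffine := by
  show ((W.map (Int.castRingHom A)).map (IsLocalRing.residue A) : WeierstrassCurve (IsLocalRing.ResidueField A)) =
    (W.map (Int.castRingHom (ZMod ℓ))).map (algebraMap (ZMod ℓ) (IsLocalRing.ResidueField A))
  rw [WeierstrassCurve.map_map, WeierstrassCurve.map_map]
  exact congrArg W.map (RingHom.ext_int _ _)

variable (hΔ : IsLocalRing.residue A (EllP.modelAt A W).Δ ≠ 0)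

/-- Reduction of geometric points at a good place, into the points of the reduced curve. -/
def redQ : EllP.QPoint W →+ ((W.reductionMod ℓ)⁄(IsLocalRing.ResidueField A)).toAffine.Point :=
  (castHom (redCurve_eq (ℓ := ℓ))).comp ((redPoint hΔ).comp (EllP.toModel A).toAddMonoidHom)

/-- Reduction turns a Frobenius element into the Frobenius endomorphism. -/
theorem redQ_smul {σ : Γℚ} (hσ : A.IsFrobeniusAt σ ℓ) (P : EllP.QPoint W) :
    redQ hΔ (σ • P) = frobPoint (IsLocalRing.ResidueField A) (W.reductionMod ℓ) (redQ (ℓ := ℓ) hΔ P) := by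
  obtain ⟨hdec, hfr⟩ := GalCommon.isFrobeniusAt_iff.mp hσ
  cases P with
  | zero =>
    rw [← Affine.Point.zero_def, smul_zero (A := EllP.QPoint W) σ]
    simp only [map_zero]
  | some x y h =>
    obtain ⟨h', hσP⟩ := EllP.smul_some_qbar σ h
    by_cases hx : x ∈ A
    · have hg : (EllLocal.genCurve A (EllP.modelAt A W)).Nonsingular x y :=
        (EllP.genCurve_modelAt A W).symm ▸ h
      have hy : y ∈ A := EllLocal.y_mem_of_x_mem hg.1 hx
      have hsx : σ x ∈ A := (GalCommon.map_mem_iff_of_mem_decomposition hdec).mpr hx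
      have hsy : σ y ∈ A := (GalCommon.map_mem_iff_of_mem_decomposition hdec).mpr hy
      have hl : EllLocal.IsLift (EllP.toModel A (Affine.Point.some x y h : EllP.QPoint W))
          ⟨x, hx⟩ ⟨y, hy⟩ := by
        rw [EllP.toModel_some]
        exact ⟨_, rfl⟩
      have hls : EllLocal.IsLift (EllP.toModel A (σ • (Affine.Point.some x y h : EllP.QPoint W)))
          ⟨σ x, hsx⟩ ⟨σ y, hsy⟩ := by
        rw [hσP, EllP.toModel_some]
        exact ⟨_, rfl⟩
      have hres : ∀ z (hz : z ∈ A) (hsz : σ z ∈ A), IsLocalRing.residue A ⟨σ z, hsz⟩ = IsLocalRing.residue A ⟨z, hz⟩ ^ ℓ := by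
        intro z hz hsz
        rw [← sub_eq_zero, ← map_pow, ← map_sub, ← GalCommon.coe_mem_nonunits_iff_residue]
        exact hfr z hz
      obtain ⟨n₁, e₁⟩ := redPoint_of_isLift hΔ hl
      obtain ⟨n₂, e₂⟩ := redPoint_of_isLift hΔ hls
      simp only [redQ, AddMonoidHom.comp_apply, AddEquiv.coe_toAddMonoidHom]
      rw [e₁, e₂, castHom_some, castHom_some]
      obtain ⟨n₃, e₃⟩ := frobPoint_some (E := W.reductionMod ℓ) (redCurve_eq (ℓ := ℓ) (W := W) (A := A) ▸ n₁)
      rw [e₃]
      simp only [hres x hx hsx, hres y hy hsy]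
    · have hsx : σ x ∉ A := fun hc => hx ((GalCommon.map_mem_iff_of_mem_decomposition hdec).mp hc)
      have z₁ : EllLocal.InE1 (EllP.toModel A (Affine.Point.some x y h : EllP.QPoint W)) := by
        rw [EllP.toModel_some]; exact hx
      have z₂ : EllLocal.InE1 (EllP.toModel A (σ • (Affine.Point.some x y h : EllP.QPoint W))) := by
        rw [hσP, EllP.toModel_some]; exact hsx
      simp only [redQ, AddMonoidHom.comp_apply, AddEquiv.coe_toAddMonoidHom,
        redPoint_of_inE1 hΔ z₁, redPoint_of_inE1 hΔ z₂, map_zero]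

omit [Fact ℓ.Prime] [Algebra (ZMod ℓ) (IsLocalRing.ResidueField A)] [DecidableEq (IsLocalRing.ResidueField A)] in
/-- A Frobenius element at a good prime `ℓ` satisfies `σ² - a_ℓ σ + ℓ = 0` on the odd torsion of
order prime to `ℓ`. -/
theorem frobenius_relation (W : WeierstrassCurve ℤ) {ℓ : ℕ} (hℓ : ℓ.Prime)
    (hgood : W.IsGoodPrimeFor ℓ) {n : ℕ} (hn : Odd n) (hℓn : n.Coprime ℓ)
    {A : ValuationSubring ℚ̄} (hA : A.LiesOverPrime ℓ) {σ : Γℚ} (hσ : A.IsFrobeniusAt σ ℓ)
    (P : EllP.QPoint W) (hP : n • P = 0) :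
    σ • σ • P - W.apOfModel ℓ • (σ • P) + (ℓ : ℤ) • P = 0 := by
  classical
  have : Fact ℓ.Prime := ⟨hℓ⟩
  have := GalCommon.charP_residueField hℓ hA
  let : Algebra (ZMod ℓ) (IsLocalRing.ResidueField A) := ZMod.algebra _ ℓ
  have := GalCommon.isAlgClosed_residueField A hℓ hA
  have hΔ := residue_Δ_ne_zero hℓ hgood hA
  set X := σ • σ • P - W.apOfModel ℓ • (σ • P) + (ℓ : ℤ) • P with hX
  have hsn : ∀ Q : EllP.QPoint W, n • Q = 0 → n • (σ • Q) = 0 := fun Q hQ => by
    rw [smul_comm, hQ]; exact smul_zero (A := EllP.QPoint W) σ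
  have hXn : n • X = 0 := by
    rw [hX, nsmul_add, nsmul_sub, smul_comm n (W.apOfModel ℓ), smul_comm n (ℓ : ℤ), hP,
      hsn _ (hsn _ hP), hsn _ hP, zsmul_zero, zsmul_zero, sub_zero, add_zero]
  have hΔ' : (W.reductionMod ℓ).Δ ≠ 0 := by
    rw [WeierstrassCurve.reductionMod, WeierstrassCurve.map_Δ, eq_intCast, Ne,
      ZMod.intCast_zmod_eq_zero_iff_dvd]
    exact hgood
  have h2 : (2 : ℕ) • redQ (ℓ := ℓ) hΔ X = 0 := by
    rw [hX, map_add, map_sub, map_zsmul, map_zsmul, redQ_smul hΔ hσ, redQ_smul hΔ hσ,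
      show W.apOfModel ℓ = (W.reductionMod ℓ).traceOfFrobenius from rfl, ← frobPoly_apply]
    exact frobRel hΔ' _
  have h0 : redQ (ℓ := ℓ) hΔ X = 0 := by
    obtain ⟨m, rfl⟩ := hn
    have := congrArg (redQ (ℓ := ℓ) hΔ) hXn
    rwa [map_nsmul, map_zero, add_smul, one_smul, mul_comm, mul_smul, h2, nsmul_zero,
      zero_add] at this
  apply (EllP.toModel A).injective
  rw [map_zero]
  refine eq_zero_of_redPoint_eq_zero hΔ (n := n) ?_ (by rw [← map_nsmul, hXn, map_zero]) ?_
  · rw [Ne, GalCommon.natCast_residue_eq_zero_iff hℓ hA]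
    exact fun h => hℓ.coprime_iff_not_dvd.mp hℓn.symm h
  · exact castHom_injective _ (h0.trans (map_zero _).symm)

end FLTAgent.EllFrob
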